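/-
Row S59, cell NMP, leaf LGC (Eichler–Shimura at `p`), piece EIG — the root theorem (helper590).

`ρ : GaloisRepAdic O` (`O` a local domain, `2` a unit) with an ordinary line `L = O b₀` at a
place `P | p` on whose quotient every Frobenius element at `P` acts by `α` (the data of
`NMP.UnrFrobAt`), `det ρ` ramified at `P`; `M` a nonzero finite free `O`-module with Galois
action `ρM` satisfying the quadratic relations of `ρ` (`S32.RelStatement` shape) and

    GEO-REL at `(P, φ)` :  `c ≠ 0`, `c M ⊆ I_aug M + (F² - a F + p) M`  ⟹  `I_aug M + 𝔪 M = M`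

(`F = ρM φ`, `φ` a Frobenius element at `P`).  Then `α² - a α + p = 0`.

* `trace_det_of_triangular` : trace and determinant of an upper triangular endomorphism.
* `isFrobeniusAt_mul_of_mem_inertia` : `φ τ` is a Frobenius element if `φ` is and `τ ∈ I_P`.
* `root_of_line` : the theorem above.
-/
import Mathlib
import Fermat.Prelude.Def_GaloisRep_LocalConditions
import Fermat.Prelude.Def_EllipticCurve_FrobeniusTrace
import Fermat.Agent.S33.H692.OrdAlgGal
import Fermat.Agent.S59.NMP.H590.EigAlg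

set_option autoImplicit false
set_option linter.style.haveILetI false

noncomputable section

namespace Fermat.Agent.S59.NMP.H590

open Module IsLocalRing Fermat.Agent.S33.H692

section Triangular

variable {O : Type*} [CommRing O] {V : Type*} [AddCommGroup V] [Module O V]

/-- Trace and determinant of an endomorphism which is upper triangular in a basis. -/
theorem trace_det_of_triangular (b : Module.Basis (Fin 2) O V) (f : Module.End O V)
    (α β γ : O) (h0 : f (b 0) = β • b 0) (h1 : f (b 1) = α • b 1 + γ • b 0) :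
    LinearMap.trace O V f = α + β ∧ LinearMap.det f = α * β := by
  have hM : LinearMap.toMatrix b b f = !![β, γ; 0, α] := by
    ext i j
    rw [LinearMap.toMatrix_apply]
    fin_cases i <;> fin_cases j
    · simp [h0]
    · simp [h1]
    · simp [h0]
    · simp [h1]
  constructor
  · rw [LinearMap.trace_eq_matrix_trace O b f, hM, Matrix.trace_fin_two_of]
    ring
  · rw [← LinearMap.det_toMatrix b f, hM, Matrix.det_fin_two_of]
    ring

end Triangular

section Frobenius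

variable {K L : Type*} [Field K] [Field L] [Algebra K L]

/-- The inertia group is contained in the decomposition group. -/
theorem mem_decomposition_of_mem_inertiaIn {P : ValuationSubring L} {τ : L ≃ₐ[K] L}
    (hτ : τ ∈ P.inertiaSubgroupIn K) : τ ∈ P.decompositionSubgroup K := by
  obtain ⟨t, -, rfl⟩ := hτ
  exact t.2

/-- If `φ` is a Frobenius element at `P` and `τ` lies in the inertia group at `P`, then `φ τ`
is a Frobenius element at `P`. -/
theorem isFrobeniusAt_mul_of_mem_inertia {P : ValuationSubring L} {φ τ : L ≃ₐ[K] L} {q : ℕ}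
    (hφ : P.IsFrobeniusAt φ q) (hτ : τ ∈ P.inertiaSubgroupIn K) :
    P.IsFrobeniusAt (φ * τ) q := by
  obtain ⟨t, ht, rfl⟩ := hτ
  obtain ⟨hφD, hφx⟩ := hφ
  have hmul : φ * (P.decompositionSubgroup K).subtype t ∈ P.decompositionSubgroup K :=
    (P.decompositionSubgroup K).mul_mem hφD t.2
  refine ⟨hmul, fun x => ?_⟩
  have ht1 : t • x = x := by
    have h := MonoidHom.mem_ker.mp ht
    have h2 := congrArg (fun e : RingAut (IsLocalRing.ResidueField P) => e x) h
    simpa using h2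
  have e : (⟨φ * (P.decompositionSubgroup K).subtype t, hmul⟩ : P.decompositionSubgroup K)
      = ⟨φ, hφD⟩ * t := Subtype.ext rfl
  rw [e, mul_smul, ht1]
  exact hφx x

end Frobenius

section Root

variable {O : Type} [CommRing O] [IsDomain O] [IsLocalRing O]

/-- **EIG (root theorem), with the residual part as a hypothesis.**  `hne` is
`S33.H692.augSub_sup_ne_top` (residual ordinary line). -/
theorem root_of_line_of_ne (ρ : GaloisRepAdic O) (p : ℕ) (α a : O)
    (P : ValuationSubring (AlgebraicClosure ℚ))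
    (b : Module.Basis (Fin 2) O ρ.V)
    (hD : ∀ σ ∈ P.decompositionSubgroup ℚ, ∀ v ∈ (O ∙ b 0), ρ.ρ σ v ∈ (O ∙ b 0))
    (hI : ∀ σ ∈ P.inertiaSubgroupIn ℚ, ∀ v : ρ.V, ρ.ρ σ v - v ∈ (O ∙ b 0))
    (hF : ∀ σ : GQ, P.IsFrobeniusAt σ p → ∀ v : ρ.V, ρ.ρ σ v - α • v ∈ (O ∙ b 0))
    {φ τ : GQ} (hφ : P.IsFrobeniusAt φ p) (hτ : τ ∈ P.inertiaSubgroupIn ℚ)
    (hτdet : LinearMap.det (ρ.ρ τ) ≠ 1)
    {M : Type} [AddCommGroup M] [Module O M] (ρM : GQ →* Module.End O M)
    (hrel : ∀ g : GQ, ρM g * ρM g - (LinearMap.trace O ρ.V (ρ.ρ g)) • ρM g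
      + (LinearMap.det (ρ.ρ g)) • (1 : Module.End O M) = 0)
    (hres : augSub (↑(P.inertiaSubgroupIn ℚ) : Set GQ) ρM ⊔
      (maximalIdeal O) • (⊤ : Submodule O M) ≠ ⊤)
    (hgeo : ∀ c : O, c ≠ 0 →
      (∀ x : M, c • x ∈ augSub (↑(P.inertiaSubgroupIn ℚ) : Set GQ) ρM ⊔
        LinearMap.range (esEnd (ρM φ) a p)) →
      augSub (↑(P.inertiaSubgroupIn ℚ) : Set GQ) ρM ⊔
        (maximalIdeal O) • (⊤ : Submodule O M) = ⊤) :
    α ^ 2 - a * α + (p : O) = 0 := by
  classical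
  -- the shape of `ρ φ`, `ρ τ`, `ρ (φ τ)` in the basis `b`
  have hb0 : b 0 ∈ (O ∙ b 0) := Submodule.mem_span_singleton_self _
  have hτD : τ ∈ P.decompositionSubgroup ℚ := mem_decomposition_of_mem_inertiaIn hτ
  have hφτ : P.IsFrobeniusAt (φ * τ) p := isFrobeniusAt_mul_of_mem_inertia hφ hτ
  obtain ⟨β, hβ⟩ := Submodule.mem_span_singleton.mp (hD φ hφ.mem_decompositionSubgroup _ hb0)
  obtain ⟨γ, hγ⟩ := Submodule.mem_span_singleton.mp (hF φ hφ (b 1))
  obtain ⟨δ, hδ⟩ := Submodule.mem_span_singleton.mp (hD τ hτD _ hb0)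
  obtain ⟨γ', hγ'⟩ := Submodule.mem_span_singleton.mp (hI τ hτ (b 1))
  obtain ⟨γ'', hγ''⟩ := Submodule.mem_span_singleton.mp (hF (φ * τ) hφτ (b 1))
  have tφ := trace_det_of_triangular b (ρ.ρ φ) α β γ hβ.symm
    (by rw [hγ]; abel)
  have tτ := trace_det_of_triangular b (ρ.ρ τ) 1 δ γ' hδ.symm
    (by rw [hγ', one_smul]; abel)
  have hφτ0 : ρ.ρ (φ * τ) (b 0) = (β * δ) • b 0 := by
    rw [map_mul, Module.End.mul_apply, ← hδ, map_smul, ← hβ, smul_smul, mul_comm]
  have tφτ := trace_det_of_triangular b (ρ.ρ (φ * τ)) α (β * δ) γ'' hφτ0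
    (by rw [hγ'']; abel)
  -- `β ≠ 0`, `δ ≠ 1`
  have hδ1 : δ ≠ 1 := by
    intro h
    apply hτdet
    rw [tτ.2, h, mul_one]
  have hβ0 : β ≠ 0 := by
    intro h
    have hu : IsUnit (LinearMap.det (ρ.ρ φ)) := by
      have h1 : LinearMap.det (ρ.ρ φ) * LinearMap.det (ρ.ρ φ⁻¹) = 1 := by
        rw [← map_mul, ← map_mul, mul_inv_cancel, map_one, map_one]
      exact IsUnit.of_mul_eq_one _ h1
    rw [tφ.2, h, mul_zero] at hu
    exact not_isUnit_zero hu
  -- the two quadratic relations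
  have r1 := hrel φ
  rw [tφ.1, tφ.2] at r1
  have r2 := hrel (φ * τ)
  rw [tφτ.1, tφτ.2, ← mul_assoc] at r2
  have hnorm : ∀ s ∈ P.inertiaSubgroupIn ℚ, φ * s * φ⁻¹ ∈ P.inertiaSubgroupIn ℚ :=
    fun s hs => conj_mem_inertiaIn P hφ.mem_decompositionSubgroup hs
  refine root_of_geoRel ρM (↑(P.inertiaSubgroupIn ℚ) : Set GQ) φ a α p hres hgeo
    ⟨β * (δ - 1), mul_ne_zero hβ0 (sub_ne_zero.mpr hδ1), fun x => ?_⟩
  exact smul_frob_sub_mem_augSub ρM (P.inertiaSubgroupIn ℚ) hτ hnorm α β δ r1 r2 x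

/-- **EIG (root theorem).**  See the header. -/
theorem root_of_line (ρ : GaloisRepAdic O) (p : ℕ) (α a : O)
    (P : ValuationSubring (AlgebraicClosure ℚ))
    (b : Module.Basis (Fin 2) O ρ.V)
    (hD : ∀ σ ∈ P.decompositionSubgroup ℚ, ∀ v ∈ (O ∙ b 0), ρ.ρ σ v ∈ (O ∙ b 0))
    (hI : ∀ σ ∈ P.inertiaSubgroupIn ℚ, ∀ v : ρ.V, ρ.ρ σ v - v ∈ (O ∙ b 0))
    (hF : ∀ σ : GQ, P.IsFrobeniusAt σ p → ∀ v : ρ.V, ρ.ρ σ v - α • v ∈ (O ∙ b 0))
    {φ τ : GQ} (hφ : P.IsFrobeniusAt φ p) (hτ : τ ∈ P.inertiaSubgroupIn ℚ)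
    (hτdet : LinearMap.det (ρ.ρ τ) ≠ 1)
    {M : Type} [AddCommGroup M] [Module O M] [Module.Free O M] [Module.Finite O M]
    [Nontrivial M] (ρM : GQ →* Module.End O M)
    (hspan : Submodule.span O (Set.range ρ.ρ) = ⊤) (h2 : IsUnit (2 : O))
    (hrel : ∀ g : GQ, ρM g * ρM g - (LinearMap.trace O ρ.V (ρ.ρ g)) • ρM g
      + (LinearMap.det (ρ.ρ g)) • (1 : Module.End O M) = 0)
    (hgeo : ∀ c : O, c ≠ 0 →
      (∀ x : M, c • x ∈ augSub (↑(P.inertiaSubgroupIn ℚ) : Set GQ) ρM ⊔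
        LinearMap.range (esEnd (ρM φ) a p)) →
      augSub (↑(P.inertiaSubgroupIn ℚ) : Set GQ) ρM ⊔
        (maximalIdeal O) • (⊤ : Submodule O M) = ⊤) :
    α ^ 2 - a * α + (p : O) = 0 := by
  classical
  -- the residual part: `I_aug M + 𝔪 M ≠ M`
  let c := Module.Free.chooseBasis O M
  have hne : Nonempty (Module.Free.ChooseBasisIndex O M) := by
    by_contra hne
    rw [not_nonempty_iff] at hne
    obtain ⟨x, y, hxy⟩ := exists_pair_ne M
    apply hxy
    apply c.repr.injective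
    ext j
    exact (hne.false j).elim
  have hcoord0 : ∀ v ∈ (O ∙ b 0), b.coord 1 v = 0 := by
    intro v hv
    obtain ⟨r, rfl⟩ := Submodule.mem_span_singleton.mp hv
    rw [map_smul, Module.Basis.coord_apply, Module.Basis.repr_self, Finsupp.single_apply,
      if_neg (by decide), smul_zero]
  have hres : augSub (↑(P.inertiaSubgroupIn ℚ) : Set GQ) ρM ⊔
      (maximalIdeal O) • (⊤ : Submodule O M) ≠ ⊤ := by
    refine augSub_sup_ne_top b ρ.ρ (RingHom.id O) c ρM hspan (fun g => hrel g) h2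
      (↑(P.inertiaSubgroupIn ℚ) : Set GQ) (b.coord 1) ⟨b 1, ?_⟩ ?_
    · rw [RingHom.id_apply, Module.Basis.coord_apply, Module.Basis.repr_self,
        Finsupp.single_apply, if_pos rfl]
      exact isUnit_one
    · intro σ hσ v
      rw [RingHom.id_apply, hcoord0 _ (hI σ hσ v)]
      exact Ideal.zero_mem _
  exact root_of_line_of_ne ρ p α a P b hD hI hF hφ hτ hτdet ρM hrel hres hgeo

end Root

end Fermat.Agent.S59.NMP.H590

end
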