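/-
Row S59, cell NMP, leaf LGC (Eichler–Shimura at `p`), piece EIG — GEO-REL (helper590).

Generalisation of `S33.homEigen_geoAt` (helper409): on the Tate eigenmodule `M` of
`X = Hom_ℤ(𝒪, J)` for a family of operators `t i` with eigenvalues `a i`, let `F = ρ frob` and
`E = F² - a i₀ F + p`.  If (K) holds for `(I, J)` and

    CORE :  `frob² x - t i₀ (frob x) + p x ∈ I_aug J[p ^ n]`   for all `x ∈ J[p ^ n]`,

then  `a₀ ≠ 0`, `a₀ M ⊆ I_aug M + E M`  ⟹  `I_aug M + 𝔪 M = M`.

(For `J = J₀(N)`, `p ∤ N`, `I = I_P`, `frob` a Frobenius element at `P`, `t i₀ = T_p`: (K) is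
`S33.OldAugStatement` (on main) and CORE is the Eichler–Shimura relation at `p` modulo the
inertia augmentation, i.e. `S37` at `ℓ = p` + MAXUNR.)
-/
import Fermat.Agent.S33.EigB

set_option autoImplicit false
set_option linter.style.haveILetI false

noncomputable section

namespace Fermat.Agent.S59.NMP.H590

open IsLocalRing Fermat.Agent.S30 Fermat.Agent.S31 Fermat.Agent.S33

/-- **GEO-REL** for a linear action over a local ring, relative to an endomorphism `E`: if
`I_aug M + E M` contains `a M` for some `a ≠ 0`, then `I_aug M` generates `M` modulo the maximal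
ideal. -/
def GeoRelAt {A M : Type} [CommRing A] [IsLocalRing A] [AddCommGroup M] [Module A M]
    (ρ : GQ →* Module.End A M) (I : Subgroup GQ) (E : Module.End A M) : Prop :=
  ∀ a : A, a ≠ 0 → (∀ m : M, a • m ∈ augSpan ρ I ⊔ LinearMap.range E) →
    augSpan ρ I ⊔ (maximalIdeal A) • (⊤ : Submodule A M) = ⊤

/-- `GeoRelAt` for `E = 0` is `S33.GeoAt`. -/
theorem geoAt_of_geoRelAt_zero {A M : Type} [CommRing A] [IsLocalRing A] [AddCommGroup M]
    [Module A M] (ρ : GQ →* Module.End A M) (I : Subgroup GQ)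
    (h : GeoRelAt ρ I (0 : Module.End A M)) : GeoAt ρ I := by
  intro a ha hall
  exact h a ha fun m => Submodule.mem_sup_left (hall m)

section GeoHom

variable (p : ℕ)
variable (O : Type) [CommRing O] [IsDomain O] [IsDiscreteValuationRing O]
  [Finite (ResidueField O)] [CharZero O]
variable (J : Type) [AddCommGroup J] [DistribMulAction GQ J]
variable {ι : Type} (t : ι → J →+ J) (a : ι → O)

/-- **The Tate eigenmodule of `Hom_ℤ(𝒪, J)` satisfies GEO-REL at `(I, frob, i₀)`** if (K) holds
for `(I, J)` and the relation `frob² - t i₀ frob + p` maps `J[p ^ n]` into `I_aug J[p ^ n]`. -/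
theorem homEigen_geoRelAt [Fact p.Prime] (hpO : (p : O) ∈ maximalIdeal O)
    (hρ : ∀ (σ : GQ) (i : ι) (h : H529.PreHom O J),
      H529.preHomRep O J σ (H529.PreHom.post (t i) h)
        = H529.PreHom.post (t i) (H529.preHomRep O J σ h))
    (I : Subgroup GQ) (hKey : KeyAt I p J) (frob : GQ) (i₀ : ι)
    (hcore : ∀ (n : ℕ) (x : J), x ∈ torsSub J (p ^ n) →
      frob • frob • x - t i₀ (frob • x) + p • x ∈ iAug I (torsSub J (p ^ n))) :
    GeoRelAt (H529.tateRep (ϖ := (p : O)) (t := fun i => H529.PreHom.post (t i)) (a := a)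
      (H529.preHomRep O J) hρ) I
      (H529.tateRep (ϖ := (p : O)) (t := fun i => H529.PreHom.post (t i)) (a := a)
          (H529.preHomRep O J) hρ frob *
        H529.tateRep (ϖ := (p : O)) (t := fun i => H529.PreHom.post (t i)) (a := a)
          (H529.preHomRep O J) hρ frob -
        a i₀ • H529.tateRep (ϖ := (p : O)) (t := fun i => H529.PreHom.post (t i)) (a := a)
          (H529.preHomRep O J) hρ frob +
        (p : O) • (1 : Module.End O
          ↥(H529.tateEigen (p : O) (fun i => H529.PreHom.post (t i)) a))) := by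
  intro a₀ ha₀ hall
  have hp0 : (p : O) ≠ 0 := by
    exact_mod_cast (Fact.out : p.Prime).ne_zero
  -- abbreviations
  set ρ := H529.tateRep (ϖ := (p : O)) (t := fun i => H529.PreHom.post (t i)) (a := a)
      (H529.preHomRep O J) hρ with hρdef
  set E : Module.End O ↥(H529.tateEigen (p : O) (fun i => H529.PreHom.post (t i)) a) :=
    ρ frob * ρ frob - a i₀ • ρ frob + (p : O) • 1 with hE
  -- `p ^ c M ≤ A + E M`
  obtain ⟨c, d, hcd⟩ := H529.exists_dvd_pow_of_mem_maximalIdeal hpO ha₀
  have hpc : ∀ m : ↥(H529.tateEigen (p : O) (fun i => H529.PreHom.post (t i)) a),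
      (p : O) ^ c • m ∈ augSpan ρ I ⊔ LinearMap.range E := by
    intro m
    rw [hcd, mul_comm, mul_smul]
    exact Submodule.smul_mem _ _ (hall m)
  obtain ⟨r, o, ho⟩ := exists_reps_mod_s33 (pow_ne_zero (c + 1) hp0)
  -- evaluation of the `c`-th component at the representatives
  let e : ↥(H529.tateEigen (p : O) (fun i => H529.PreHom.post (t i)) a) →+ (Fin r → J) :=
    { toFun := fun v i => H529.PreHom.toHom ((v : ℕ → H529.PreHom O J) c) (o i)
      map_zero' := by
        funext i
        rfl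
      map_add' := by
        intro v w
        funext i
        rfl }
  have he : ∀ v i, e v i = H529.PreHom.toHom ((v : ℕ → H529.PreHom O J) c) (o i) :=
    fun _ _ => rfl
  have heq : ∀ (σ : GQ) v, e (ρ σ v) = σ • e v := by
    intro σ v
    funext i
    rfl
  -- the kernel of `e`
  have hker : ∀ v, e v = 0 → ∃ w : ↥(H529.tateEigen (p : O)
      (fun i => H529.PreHom.post (t i)) a), v = (p : O) ^ (c + 1) • w := by
    intro v hv
    have hvi : ∀ i, H529.PreHom.toHom ((v : ℕ → H529.PreHom O J) c) (o i) = 0 := by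
      intro i
      rw [← he, hv]
      rfl
    have h0 : (v : ℕ → H529.PreHom O J) c = 0 := by
      apply H529.PreHom.ext
      intro x
      obtain ⟨i, d', hd'⟩ := ho x
      have h1 : H529.PreHom.toHom ((v : ℕ → H529.PreHom O J) c) ((p : O) ^ (c + 1) * d') = 0 := by
        rw [← H529.PreHom.smul_apply, H529.tate_pow_succ_smul v.2 c]
        rfl
      rw [hd', map_add, hvi i, h1, add_zero]
      rfl
    have hlt : ∀ m, m < c + 1 → (v : ℕ → H529.PreHom O J) m = 0 := by
      intro m hm
      obtain ⟨k, rfl⟩ : ∃ k, c = m + k := ⟨c - m, by omega⟩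
      rw [← H529.tate_pow_smul v.2 k m, h0, smul_zero]
    obtain ⟨w, hw, hvw⟩ := H529.tate_exists_eq_pow_smul v.2 (c + 1) hlt
    refine ⟨⟨w, hw⟩, ?_⟩
    apply Subtype.ext
    rw [hvw]
    rfl
  -- values of the `c`-th component are killed by `p ^ (c + 1)`
  have hval : ∀ (v : ↥(H529.tateEigen (p : O) (fun i => H529.PreHom.post (t i)) a)) (x : O),
      H529.PreHom.toHom ((v : ℕ → H529.PreHom O J) c) x ∈ torsSub J (p ^ (c + 1)) := by
    intro v x
    rw [mem_torsSub, ← H529.PreHom.natCast_pow_smul_apply, H529.tate_pow_succ_smul v.2 c]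
    rfl
  -- elements of `A` have `c`-th component with values in `I_aug J[p ^ (c + 1)]`
  have haug : ∀ v : ↥(H529.tateEigen (p : O) (fun i => H529.PreHom.post (t i)) a),
      v ∈ augSpan ρ I → ∀ x : O,
        H529.PreHom.toHom ((v : ℕ → H529.PreHom O J) c) x
          ∈ iAug I (torsSub J (p ^ (c + 1))) := by
    intro v hv
    unfold augSpan at hv
    induction hv using Submodule.span_induction with
    | mem z hz =>
      obtain ⟨σ, hσ, m, rfl⟩ := hz
      intro x
      exact smul_sub_mem_iAug hσ (hval m x)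
    | zero =>
      intro x
      exact AddSubgroup.zero_mem _
    | add z w _ _ hz hw =>
      intro x
      exact AddSubgroup.add_mem _ (hz x) (hw x)
    | smul b z _ hz =>
      intro x
      exact hz (b * x)
  -- elements of `E M` have `c`-th component with values in `I_aug J[p ^ (c + 1)]` (CORE)
  have hrel : ∀ (m : ↥(H529.tateEigen (p : O) (fun i => H529.PreHom.post (t i)) a)) (x : O),
      H529.PreHom.toHom (((E m : ↥(H529.tateEigen (p : O)
          (fun i => H529.PreHom.post (t i)) a)) : ℕ → H529.PreHom O J) c) x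
        ∈ iAug I (torsSub J (p ^ (c + 1))) := by
    intro m x
    have h1 : H529.PreHom.toHom (((E m : ↥(H529.tateEigen (p : O)
          (fun i => H529.PreHom.post (t i)) a)) : ℕ → H529.PreHom O J) c) x
        = frob • frob • H529.PreHom.toHom ((m : ℕ → H529.PreHom O J) c) x
          - t i₀ (frob • H529.PreHom.toHom ((m : ℕ → H529.PreHom O J) c) x)
          + p • H529.PreHom.toHom ((m : ℕ → H529.PreHom O J) c) x := by
      have h2 : H529.PreHom.toHom ((a i₀ • ((ρ frob m : ↥(H529.tateEigen (p : O)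
          (fun i => H529.PreHom.post (t i)) a)) : ℕ → H529.PreHom O J) c)) x
          = t i₀ (frob • H529.PreHom.toHom ((m : ℕ → H529.PreHom O J) c) x) := by
        rw [← (ρ frob m).2.2.2 i₀ c]
        rfl
      have h3 : H529.PreHom.toHom (((p : O)) • ((m : ℕ → H529.PreHom O J) c)) x
          = p • H529.PreHom.toHom ((m : ℕ → H529.PreHom O J) c) x :=
        H529.PreHom.natCast_smul_apply p _ x
      rw [← h2, ← h3]
      rfl
    rw [h1]
    exact hcore (c + 1) _ (hval m x)
  have haugS : ∀ v : ↥(H529.tateEigen (p : O) (fun i => H529.PreHom.post (t i)) a),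
      v ∈ augSpan ρ I ⊔ LinearMap.range E → ∀ x : O,
        H529.PreHom.toHom ((v : ℕ → H529.PreHom O J) c) x
          ∈ iAug I (torsSub J (p ^ (c + 1))) := by
    intro v hv x
    obtain ⟨v₁, hv₁, v₂, ⟨m, rfl⟩, rfl⟩ := Submodule.mem_sup.mp hv
    exact AddSubgroup.add_mem _ (haug v₁ hv₁ x) (hrel m x)
  -- the subgroup `Y = e (p ^ c M)`
  let φ : ↥(H529.tateEigen (p : O) (fun i => H529.PreHom.post (t i)) a) →+ (Fin r → J) :=
    e.comp (DistribSMul.toAddMonoidHom _ ((p : O) ^ c))
  have hφ : ∀ v, φ v = e ((p : O) ^ c • v) := fun _ => rfl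
  have hφeq : ∀ (σ : GQ) v, φ (ρ σ v) = σ • φ v := by
    intro σ v
    rw [hφ, hφ, ← map_smul, heq]
  have hYG : ∀ (σ : GQ), ∀ y ∈ φ.range, σ • y ∈ φ.range := by
    rintro σ _ ⟨v, rfl⟩
    exact ⟨ρ σ v, hφeq σ v⟩
  have hYS : ∀ y ∈ φ.range, ∀ i, InSPlus I p (y i) := by
    rintro _ ⟨v, rfl⟩ i
    refine ⟨?_, c + 1, ?_⟩
    · rw [hφ, he, ← H529.PreHom.natCast_smul_apply]
      have h1 : (p : O) • (((p : O) ^ c • v : ↥(H529.tateEigen (p : O)
          (fun i => H529.PreHom.post (t i)) a)) : ℕ → H529.PreHom O J) c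
          = (p : O) ^ (c + 1) • (v : ℕ → H529.PreHom O J) c := by
        rw [pow_succ', mul_smul]
        rfl
      rw [h1, H529.tate_pow_succ_smul v.2 c]
      rfl
    · rw [hφ, he]
      exact haugS _ (hpc v) (o i)
  have hYkey : φ.range ≤ iAug I φ.range := keyAt_pi hKey r φ.range hYG hYS
  -- lifting the augmentation of `Y`
  have hlift : ∀ y ∈ iAug I φ.range, ∃ v ∈ augSpan ρ I, φ v = y := by
    intro y hy
    unfold iAug at hy
    induction hy using AddSubgroup.closure_induction with
    | mem z hz =>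
      obtain ⟨σ, hσ, y', ⟨v', rfl⟩, rfl⟩ := hz
      refine ⟨ρ σ v' - v', Submodule.subset_span ⟨σ, hσ, v', rfl⟩, ?_⟩
      rw [map_sub, hφeq]
    | zero => exact ⟨0, Submodule.zero_mem _, map_zero φ⟩
    | add z w _ _ hz hw =>
      obtain ⟨v, hv, rfl⟩ := hz
      obtain ⟨v', hv', rfl⟩ := hw
      exact ⟨v + v', Submodule.add_mem _ hv hv', map_add φ v v'⟩
    | neg z _ hz =>
      obtain ⟨v, hv, rfl⟩ := hz
      exact ⟨-v, Submodule.neg_mem _ hv, map_neg φ v⟩
  -- conclusion
  rw [eq_top_iff]
  intro m _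
  obtain ⟨v, hv, hvm⟩ := hlift (φ m) (hYkey ⟨m, rfl⟩)
  have h0 : e ((p : O) ^ c • (m - v)) = 0 := by
    rw [← hφ, map_sub, hvm, sub_self]
  obtain ⟨w, hw⟩ := hker _ h0
  have h1 : m - v = (p : O) • w := by
    have h2 : (p : O) ^ c • (m - v - (p : O) • w) = 0 := by
      rw [smul_sub, hw, pow_succ, mul_smul, sub_self]
    have h3 : (m - v - (p : O) • w : ↥(H529.tateEigen (p : O)
        (fun i => H529.PreHom.post (t i)) a)) = 0 := by
      apply Subtype.ext
      funext n
      have h4 := H529.tate_pow_smul (m - v - (p : O) • w).2 c n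
      have h5 := congrFun (congrArg Subtype.val h2) (n + c)
      rw [← h4]
      exact h5
    exact sub_eq_zero.mp h3
  have h6 : m = v + (p : O) • w := by
    rw [← h1]; abel
  rw [h6]
  exact Submodule.add_mem_sup hv (Submodule.smul_mem_smul hpO Submodule.mem_top)

end GeoHom

end Fermat.Agent.S59.NMP.H590

end
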