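/-
Row S59, cell NMP, leaf LGC (Eichler–Shimura at `p`), piece EIG — pure algebra (helper590).

`M` a module over a local domain `O` with an action `ρM` of a group `G`, `I ⊆ G` (the inertia
group), `φ ∈ G` (a Frobenius element), `F = ρM φ`, `I_aug M = S33.H692.augSub I ρM`.

* `esEnd F a p = F² - a F + p` (the Eichler–Shimura operator for the eigenvalue `a` of `T_p`).
* `smul_frob_sub_mem_augSub` (FROB): if `F` satisfies `(X - α)(X - β)` and `ρM (φ τ)` satisfies
  `(X - α)(X - β δ)` for some `τ ∈ I`, then `β (δ - 1) (F - α) M ⊆ I_aug M`.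
  (No Boston–Lenstra–Ribet: only the quadratic relations of two Frobenius elements.)
* `root_of_geoRel` (ROOT): if
    - `I_aug M + 𝔪 M ≠ M`                                   (residual ordinary line),
    - GEO-REL: `c ≠ 0`, `c M ⊆ I_aug M + (F² - a F + p) M`  ⟹  `I_aug M + 𝔪 M = M`,
    - `b (F - α) M ⊆ I_aug M` for some `b ≠ 0`,
  then `α² - a α + p = 0`.
-/
import Mathlib
import Fermat.Agent.S33.H692.OrdAlg

set_option autoImplicit false

noncomputable section

namespace Fermat.Agent.S59.NMP.H590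

open Module IsLocalRing Fermat.Agent.S33.H692

section Defs

variable {O : Type*} [CommRing O] {M : Type*} [AddCommGroup M] [Module O M]

/-- The Eichler–Shimura operator `F² - a F + p`. -/
def esEnd (F : Module.End O M) (a : O) (p : ℕ) : Module.End O M :=
  F * F - a • F + (p : O) • (1 : Module.End O M)

theorem esEnd_apply (F : Module.End O M) (a : O) (p : ℕ) (x : M) :
    esEnd F a p x = F (F x) - a • F x + (p : O) • x := rfl

/-- `(α² - a α + p) x = (F² - a F + p) x - (F - α) (F x + α x - a x)`. -/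
theorem root_smul_eq (F : Module.End O M) (a α : O) (p : ℕ) (x : M) :
    (α ^ 2 - a * α + (p : O)) • x =
      esEnd F a p x - (F (F x + α • x - a • x) - α • (F x + α • x - a • x)) := by
  rw [esEnd_apply]
  simp only [map_add, map_sub, map_smul, smul_add, smul_sub, add_smul, sub_smul, smul_smul]
  have e1 : α ^ 2 = α * α := sq α
  rw [e1, mul_comm a α]
  abel

end Defs

section Frob

variable {O : Type*} [CommRing O] {M : Type*} [AddCommGroup M] [Module O M]
  {G : Type*} [Group G] (ρM : G →* Module.End O M)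

/-- **FROB.**  Let `I` be a subgroup normalised by `φ`, `τ ∈ I`.  If `ρM φ` satisfies
`X² - (α + β) X + α β` and `ρM (φ τ)` satisfies `X² - (α + β δ) X + α β δ`, then
`β (δ - 1) (ρM φ x - α x) ∈ I_aug M` for all `x`. -/
theorem smul_frob_sub_mem_augSub (I : Subgroup G) {φ τ : G} (hτ : τ ∈ I)
    (hφ : ∀ s ∈ I, φ * s * φ⁻¹ ∈ I) (α β δ : O)
    (h1 : ρM φ * ρM φ - (α + β) • ρM φ + (α * β) • (1 : Module.End O M) = 0)
    (h2 : ρM (φ * τ) * ρM (φ * τ) - (α + β * δ) • ρM (φ * τ)
      + (α * β * δ) • (1 : Module.End O M) = 0) (x : M) :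
    (β * (δ - 1)) • (ρM φ x - α • x) ∈ augSub (I : Set G) ρM := by
  set A := augSub (I : Set G) ρM with hA
  set F := ρM φ with hF
  set t := ρM τ with ht
  have hFA : ∀ y ∈ A, F y ∈ A := fun y hy =>
    map_mem_augSub ρM (τ := φ) (fun s hs => hφ s hs) hy
  have htA : ∀ y : M, t y - y ∈ A := fun y => sub_mem_augSub ρM hτ y
  have hFt : ρM (φ * τ) = F * t := map_mul ρM φ τ
  -- `F t y ≡ F y`
  have hcong : ∀ y : M, F (t y) - F y ∈ A := by
    intro y
    rw [← map_sub]
    exact hFA _ (htA y)
  have e1 := congrArg (fun E : Module.End O M => E x) h1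
  have e2 := congrArg (fun E : Module.End O M => E x) h2
  simp only [LinearMap.add_apply, LinearMap.sub_apply, LinearMap.smul_apply,
    Module.End.mul_apply, Module.End.one_apply, LinearMap.zero_apply] at e1 e2
  rw [hFt] at e2
  simp only [Module.End.mul_apply] at e2
  -- the difference of the two relations, up to elements of `A`
  have hkey : (β * (δ - 1)) • (F x - α • x) =
      (F (t (F (t x))) - F (F x)) - (α + β * δ) • (F (t x) - F x) := by
    have h3 : F (t (F (t x))) = (α + β * δ) • F (t x) - (α * β * δ) • x := by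
      rw [eq_sub_iff_add_eq, ← sub_eq_zero]
      rw [← e2]
      abel
    have h4 : F (F x) = (α + β) • F x - (α * β) • x := by
      rw [eq_sub_iff_add_eq, ← sub_eq_zero]
      rw [← e1]
      abel
    rw [h3, h4]
    module
  rw [hkey]
  refine Submodule.sub_mem _ ?_ (Submodule.smul_mem _ _ (hcong x))
  -- `F t F t x - F F x = (F t (F t x) - F (F t x)) + F (F t x - F x)`
  have : F (t (F (t x))) - F (F x) = (F (t (F (t x))) - F (F (t x))) + F (F (t x) - F x) := by
    rw [map_sub]
    abel
  rw [this]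
  exact Submodule.add_mem _ (hcong _) (hFA _ (hcong x))

end Frob

section Root

variable {O : Type*} [CommRing O] [IsDomain O] [IsLocalRing O]
  {M : Type*} [AddCommGroup M] [Module O M] {G : Type*} [Group G] (ρM : G →* Module.End O M)

/-- **ROOT.**  The unramified Frobenius eigenvalue `α` is a root of `X² - a X + p`. -/
theorem root_of_geoRel (I : Set G) (φ : G) (a α : O) (p : ℕ)
    (hne : augSub I ρM ⊔ (maximalIdeal O) • (⊤ : Submodule O M) ≠ ⊤)
    (hgeo : ∀ c : O, c ≠ 0 →
      (∀ x : M, c • x ∈ augSub I ρM ⊔ LinearMap.range (esEnd (ρM φ) a p)) →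
      augSub I ρM ⊔ (maximalIdeal O) • (⊤ : Submodule O M) = ⊤)
    (hα : ∃ b : O, b ≠ 0 ∧ ∀ x : M, b • (ρM φ x - α • x) ∈ augSub I ρM) :
    α ^ 2 - a * α + (p : O) = 0 := by
  by_contra hroot
  obtain ⟨b, hb, hbx⟩ := hα
  apply hne
  refine hgeo (b * (α ^ 2 - a * α + (p : O))) (mul_ne_zero hb hroot) fun x => ?_
  rw [mul_smul, root_smul_eq (ρM φ) a α p x, smul_sub]
  refine Submodule.sub_mem _ ?_ ?_
  · refine Submodule.mem_sup_right ⟨b • x, ?_⟩
    rw [map_smul]
  · exact Submodule.mem_sup_left (hbx _)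

end Root

end Fermat.Agent.S59.NMP.H590

end
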