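/-
Row S59, cell NMP, leaf LGC (Eichler–Shimura at `p`), piece EIG — the eigenmodule (helper590).

* `exists_geoRel_homEigenmodule` : `S33.exists_geo_homEigenmodule` (helper409) with the additional
  conclusion GEO-REL (`homEigen_geoRelAt`).
* `exists_eigenModule_geoRel` : for `J₀(N)`, `p ∤ N`, an eigen-homomorphism
  `f : Frac 𝒪' / 𝒪' → J₀(N)` for a character `χ` of the Hecke algebra away from `S ∋ p` AND for
  `T_p` (eigenvalue `b`), and CORE (`(φ² - T_p φ + p) J[pⁿ] ⊆ I_aug J[pⁿ]`), give an adic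
  eigenmodule of `χ` satisfying GEO-REL for `F² - b F + p` at every place over `p`.
-/
import Fermat.Agent.S59.NMP.H590.GeoRel
import Fermat.Agent.S59.NMP.H590.EigAlg

set_option autoImplicit false
set_option linter.style.haveILetI false

noncomputable section

namespace Fermat.Agent.S59.NMP.H590

open IsLocalRing Fermat.Agent.S30 Fermat.Agent.S31 Fermat.Agent.S33

/-! ### The eigenmodule attached to an eigen-homomorphism, with GEO and GEO-REL -/

section MainHom

/-- `S33.exists_geo_homEigenmodule` with the additional conclusion GEO-REL at every `(I, frob, i₀)`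
for which (K) and CORE hold.  (Copy of the proof of helper409/helper32, last conclusion added.) -/
theorem exists_geoRel_homEigenmodule
    {p : ℕ} (hp : p.Prime)
    {O : Type} [CommRing O] [IsDomain O] [IsDiscreteValuationRing O]
    [IsAdicComplete (IsLocalRing.maximalIdeal O) O] [Finite (IsLocalRing.ResidueField O)]
    [CharZero O] (hpO : (p : O) ∈ IsLocalRing.maximalIdeal O)
    {J : Type} [AddCommGroup J] [DistribMulAction GQ J]
    (hsm : ∀ x : J, ∃ L : IntermediateField ℚ (AlgebraicClosure ℚ), FiniteDimensional ℚ L ∧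
      ∀ σ : GQ, (∀ y ∈ L, σ y = y) → σ • x = x)
    (hfin : {x : J | p • x = 0}.Finite)
    {ι : Type} (t : ι → J →+ J) (ht : ∀ i (σ : GQ) (x : J), σ • t i x = t i (σ • x))
    (a : ι → O)
    (f : FractionRing O →+ J) (hf0 : ∀ r : O, f (algebraMap O (FractionRing O) r) = 0)
    (hf : f ≠ 0)
    (hfe : ∀ i x, t i (f x) = f (algebraMap O (FractionRing O) (a i) * x)) :
    ∃ (M : Type) (_ : AddCommGroup M) (_ : Module O M) (_ : Module.Free O M)
      (_ : Module.Finite O M) (ρ : GQ →* Module.End O M),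
      Nontrivial M ∧ GaloisActionIsAdicContinuous O ρ ∧
      (∀ σ : GQ, (∀ x : J, (∃ n : ℕ, p ^ n • x = 0) → σ • x = x) → ρ σ = 1) ∧
      (∀ (i : ι) (n : ℕ) (σ : GQ),
        (∀ x : J, (∃ k : ℕ, p ^ k • x = 0) → σ • σ • x - t i (σ • x) + n • x = 0) →
        ρ σ * ρ σ - a i • ρ σ + (n : O) • (1 : Module.End O M) = 0) ∧
      (∀ I : Subgroup GQ, KeyAt I p J → GeoAt ρ I) ∧
      ∀ (I : Subgroup GQ) (frob : GQ) (i₀ : ι), KeyAt I p J →
        (∀ (n : ℕ) (x : J), x ∈ torsSub J (p ^ n) →
          frob • frob • x - t i₀ (frob • x) + p • x ∈ iAug I (torsSub J (p ^ n))) →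
        GeoRelAt ρ I (esEnd (ρ frob) (a i₀) p) := by
  have : Fact p.Prime := ⟨hp⟩
  have hϖ0 : (p : O) ≠ 0 := by exact_mod_cast hp.ne_zero
  have hpL : algebraMap O (FractionRing O) (p : O) ≠ 0 := by
    intro h
    exact hϖ0 ((IsFractionRing.injective O (FractionRing O)) (by rw [h, map_zero]))
  -- operators
  set t' : ι → H529.PreHom O J →ₗ[O] H529.PreHom O J := fun i => H529.PreHom.post (t i) with ht'
  have hρ : ∀ (σ : GQ) (i : ι) (h : H529.PreHom O J),
      H529.preHomRep O J σ (t' i h) = t' i (H529.preHomRep O J σ h) := by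
    intro σ i h
    apply H529.PreHom.ext
    intro x
    simp only [ht', H529.preHomRep_apply, H529.PreHom.post_apply]
    exact ht i σ _
  -- finiteness
  have hX : ∃ Y : Submodule O (H529.PreHom O J), Y.FG ∧
      ∀ h : H529.PreHom O J, (p : O) • h = 0 → h ∈ Y := by
    have hfinX := H529.preHom_torsion_finite (O := O) (J := J) p hϖ0 hfin
    exact ⟨Submodule.span O {h : H529.PreHom O J | (p : O) • h = 0},
      Submodule.fg_span hfinX, fun h hh => Submodule.subset_span hh⟩
  have hfree := H529.tateEigen_free (t := t') (a := a) hpO hϖ0 hX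
  have hfinite := H529.tateEigen_finite (t := t') (a := a) hpO hϖ0 hX
  -- torsion values
  have hval : ∀ (k : ℕ) (h : H529.PreHom O J), (p : O) ^ k • h = 0 →
      ∀ x : O, p ^ k • H529.PreHom.toHom h x = 0 := by
    intro k h hh x
    rw [← H529.PreHom.natCast_pow_smul_apply, hh]
    rfl
  refine ⟨H529.tateEigen (p : O) t' a, inferInstance, inferInstance, hfree, hfinite,
    H529.tateRep (H529.preHomRep O J) hρ, ?_, ?_, ?_, ?_,
    fun I hKey => homEigen_geoAt p O J t a hpO hρ I hKey,
    fun I frob i₀ hKey hcore => homEigen_geoRelAt p O J t a hpO hρ I hKey frob i₀ hcore⟩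
  · -- nontrivial
    have hmem : H529.seqOfHom p f ∈ H529.tateEigen (p : O) t' a := by
      refine ⟨?_, ?_, ?_⟩
      · apply H529.PreHom.ext
        intro x
        rw [H529.PreHom.smul_apply, H529.seqOfHom_apply,
          (algebraMap O (FractionRing O)).map_mul]
        have : algebraMap O (FractionRing O) (p : O) * algebraMap O (FractionRing O) x
            * (algebraMap O (FractionRing O) (p : O) ^ (0 + 1))⁻¹
            = algebraMap O (FractionRing O) x := by
          field_simp
          ring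
        rw [this, hf0]
        rfl
      · intro n
        apply H529.PreHom.ext
        intro x
        rw [H529.PreHom.smul_apply, H529.seqOfHom_apply, H529.seqOfHom_apply,
          (algebraMap O (FractionRing O)).map_mul]
        congr 1
        field_simp
        ring
      · intro i n
        apply H529.PreHom.ext
        intro x
        rw [H529.PreHom.smul_apply, H529.seqOfHom_apply]
        simp only [ht', H529.PreHom.post_apply]
        rw [H529.seqOfHom_apply, hfe, (algebraMap O (FractionRing O)).map_mul, mul_assoc]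
    have hne : H529.seqOfHom p f ≠ 0 := by
      intro h0
      apply hf
      apply AddMonoidHom.ext
      intro y
      obtain ⟨x, s, hs, rfl⟩ := IsFractionRing.div_surjective (A := O) y
      have hs0 : s ≠ 0 := nonZeroDivisors.ne_zero hs
      obtain ⟨k, c, hc⟩ := H529.exists_dvd_pow_of_mem_maximalIdeal hpO hs0
      have h1 := congrArg (fun h => H529.PreHom.toHom h (x * c * (p : O))) (congrFun h0 k)
      simp only [H529.seqOfHom_apply] at h1
      have hsL : algebraMap O (FractionRing O) s ≠ 0 := by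
        intro h
        exact hs0 ((IsFractionRing.injective O (FractionRing O)) (by rw [h, map_zero]))
      have h2 : algebraMap O (FractionRing O) (x * c * (p : O))
          * (algebraMap O (FractionRing O) (p : O) ^ (k + 1))⁻¹
          = algebraMap O (FractionRing O) x / algebraMap O (FractionRing O) s := by
        have h3 : algebraMap O (FractionRing O) (p : O) ^ k
            = algebraMap O (FractionRing O) s * algebraMap O (FractionRing O) c := by
          rw [← map_pow, hc, map_mul]
        rw [pow_succ, h3, (algebraMap O (FractionRing O)).map_mul,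
          (algebraMap O (FractionRing O)).map_mul]
        have hcL : algebraMap O (FractionRing O) c ≠ 0 := by
          intro h
          rw [h, mul_zero] at h3
          exact hpL (pow_eq_zero_iff (by
            intro hk
            subst hk
            simp at h3) |>.mp h3)
        field_simp
      rw [h2] at h1
      rw [h1]
      rfl
    refine ⟨⟨⟨H529.seqOfHom p f, hmem⟩, 0, ?_⟩⟩
    intro h
    exact hne (congrArg Subtype.val h)
  · -- continuity
    intro n
    obtain ⟨L, hL, hLfix⟩ := H529.exists_common_level {x : J | p ^ n • x = 0}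
      (H529.finite_torsion_pow J p hfin n) (fun x _ => hsm x)
    refine ⟨L, hL, fun σ hσ m => ?_⟩
    apply H529.tateRep_sub_mem (H529.preHomRep O J) hρ hpO n σ
    intro h hh
    apply H529.PreHom.ext
    intro x
    rw [H529.preHomRep_apply]
    exact hLfix σ hσ _ (hval n h hh x)
  · -- trivial action
    intro σ hσ
    apply H529.tateRep_eq_one
    rintro h ⟨k, hh⟩
    apply H529.PreHom.ext
    intro x
    rw [H529.preHomRep_apply]
    exact hσ _ ⟨k, hval k h hh x⟩
  · -- quadratic relations
    intro i n σ hσ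
    apply H529.tateRep_quadratic
    rintro h ⟨k, hh⟩
    apply H529.PreHom.ext
    intro x
    have h1 := hσ (H529.PreHom.toHom h x) ⟨k, hval k h hh x⟩
    simp only [ht', H529.PreHom.toHom_add, H529.PreHom.toHom_sub, AddMonoidHom.add_apply,
      AddMonoidHom.sub_apply, H529.preHomRep_apply, H529.PreHom.post_apply,
      H529.PreHom.natCast_smul_apply, H529.PreHom.toHom_zero, AddMonoidHom.zero_apply]
    exact h1

end MainHom

/-! ### The eigenmodule of `J₀(N)` for a system including `T_p`, with GEO-REL at `p` -/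

section Chain

open Fermat.Agent.S30.H990 (AdicEigenModule)
open Fermat.Agent.S30.H330

/-- **CORE at `(N, p)`** (Eichler–Shimura at `p` modulo the inertia augmentation): for every
place `Pl ∣ p` and every Frobenius element `φ` at `Pl`,
`(φ² - T_p φ + p) J₀(N)[pⁿ] ⊆ I_aug J₀(N)[pⁿ]`  (`I = I_{Pl}`). -/
def CoreAt (N : ℕ) [NeZero N] (p : ℕ) [Fact p.Prime] : Prop :=
  ∀ Pl : ValuationSubring Qb, Pl.LiesOverPrime p → ∀ φ : GQ, Pl.IsFrobeniusAt φ p →
    ∀ (n : ℕ) (x : ModularCurve.JZero N), x ∈ torsSub (ModularCurve.JZero N) (p ^ n) →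
      φ • φ • x - ModularCurve.heckeOperatorBar N ⟨p, Fact.out⟩ (φ • x) + p • x
        ∈ iAug (Pl.inertiaSubgroupIn ℚ) (torsSub (ModularCurve.JZero N) (p ^ n))

/-- **The eigenmodule with GEO-REL at `p`.**  `p ∤ N` odd, `χ` a character of the Hecke algebra
away from `S ∋ p`, `b` a candidate eigenvalue of `T_p`, `f` a nonzero eigen-homomorphism
`Frac 𝒪' / 𝒪' → J₀(N)` for `(χ, b)`.  Under CORE there is an adic eigenmodule of `χ` satisfying
GEO-REL for `F² - b F + p` at every place over `p`.
(`hOLD`, `hF`, `hT` are theorems on main, see `EigFinal.lean`.) -/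
theorem exists_eigenModule_geoRel (hOLD : OldAugStatement)
    (hF : ∀ (N : ℕ) [NeZero N] (p : ℕ) [Fact p.Prime], FinStatement N p)
    (hT : ∀ (N : ℕ) [NeZero N] (p : ℕ) [Fact p.Prime], TorsionRelations N p)
    (p : ℕ) [Fact p.Prime] (hp2 : p ≠ 2) (N : ℕ) [NeZero N] (hpN : ¬ p ∣ N)
    (S : Finset ℕ) (hpS : p ∈ S)
    (𝒪' : Type) [CommRing 𝒪'] [IsDomain 𝒪'] [IsDiscreteValuationRing 𝒪']
    [IsAdicComplete (maximalIdeal 𝒪') 𝒪'] [Finite (ResidueField 𝒪')]
    [CharZero 𝒪'] (hp𝒪' : (p : 𝒪') ∈ maximalIdeal 𝒪')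
    (χ : CuspForm.heckeAlgebra N 2 (↑S : Set ℕ) →+* 𝒪') (b : 𝒪')
    (f : FractionRing 𝒪' →+ ModularCurve.JZero N)
    (hf0 : ∀ r : 𝒪', f (algebraMap 𝒪' (FractionRing 𝒪') r) = 0) (hf : f ≠ 0)
    (hfe : ∀ (ℓ : Nat.Primes), (ℓ : ℕ) ∉ S → ∀ x,
      ModularCurve.heckeOperatorBar N ℓ (f x)
        = f (algebraMap 𝒪' (FractionRing 𝒪') (eigenvalue χ ℓ) * x))
    (hfp : ∀ x, ModularCurve.heckeOperatorBar N ⟨p, Fact.out⟩ (f x)
      = f (algebraMap 𝒪' (FractionRing 𝒪') b * x))
    (hcore : CoreAt N p) :
    ∃ E : AdicEigenModule p N S 𝒪' χ, ∀ Pl : ValuationSubring Qb, Pl.LiesOverPrime p →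
      ∀ φ : GQ, Pl.IsFrobeniusAt φ p →
        GeoRelAt E.ρ (Pl.inertiaSubgroupIn ℚ) (esEnd (E.ρ φ) b p) := by
  classical
  have hp : p.Prime := Fact.out
  have hSm := Fermat.Agent.S30.H990.smoothStatement N
  have hGH := Fermat.Agent.S30.H990.galoisHeckeStatement N
  -- the operators: `none ↦ T_p`, `some ℓ ↦ T_ℓ`
  let t : Option {ℓ : Nat.Primes // (ℓ : ℕ) ∉ S} →
      ModularCurve.JZero N →+ ModularCurve.JZero N := fun i =>
    Option.rec (ModularCurve.heckeOperatorBar N ⟨p, Fact.out⟩).toAddMonoidHom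
      (fun j => (ModularCurve.heckeOperatorBar N j.1).toAddMonoidHom) i
  let a : Option {ℓ : Nat.Primes // (ℓ : ℕ) ∉ S} → 𝒪' := fun i =>
    Option.rec b (fun j => eigenvalue χ (j.1 : ℕ)) i
  have ht : ∀ i (σ : GQ) (x : ModularCurve.JZero N), σ • t i x = t i (σ • x) := by
    intro i σ x
    cases i with
    | none => exact hGH σ _ x
    | some j => exact hGH σ j.1 x
  have hfe' : ∀ i x, t i (f x) = f (algebraMap 𝒪' (FractionRing 𝒪') (a i) * x) := by
    intro i x
    cases i with
    | none => exact hfp x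
    | some j => exact hfe j.1 j.2 x
  obtain ⟨M, j1, j2, j3, j4, ρ, hnt, hcont, hunr, hquad, -, hgeoRel⟩ :=
    exists_geoRel_homEigenmodule (O := 𝒪') hp hp𝒪' (J := ModularCurve.JZero N)
      (fun x => hSm x) (hF N p) t ht a f hf0 hf hfe'
  have hdvd : ∀ q : ℕ, q.Prime → ¬ q ∣ N → q ≠ p → ¬ q ∣ N * p := by
    intro q hq hqN hqp hdiv
    rcases (Nat.Prime.dvd_mul hq).1 hdiv with h1 | h1
    · exact hqN h1
    · exact hqp ((Nat.prime_dvd_prime_iff_eq hq hp).1 h1)
  refine ⟨{ M := M
            ρ := ρ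
            cont := hcont
            unram := fun q hq hqN hqp P hP σ hσ =>
              hunr σ fun x hx => (hT N p q hq (hdvd q hq hqN hqp) P hP).1 σ hσ x hx
            frob := fun ℓ hℓ hℓN hℓS A hA σ hσ => by
              have hℓS' : ℓ ∉ S := fun hmem => hℓS (Finset.mem_coe.mpr hmem)
              have hℓp : ℓ ≠ p := fun h => hℓS' (h ▸ hpS)
              have h1 := hquad (some ⟨⟨ℓ, hℓ⟩, hℓS'⟩) ℓ σ
                fun x hx => (hT N p ℓ hℓ (hdvd ℓ hℓ hℓN hℓp) A hA).2 σ hσ x hx
              have h2 : eigenvalue χ ℓ = χ (CuspForm.heckeAlgebra.T hℓ hℓN hℓS) := by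
                unfold eigenvalue
                rw [dif_pos ⟨hℓ, hℓN, hℓS⟩]
              rw [← h2]
              exact h1 }, ?_⟩
  intro Pl hPl φ hφ
  exact hgeoRel (Pl.inertiaSubgroupIn ℚ) φ none (hOLD p N hp hp2 hpN Pl hPl) (hcore Pl hPl φ hφ)

end Chain

end Fermat.Agent.S59.NMP.H590

end
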