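/-
Row S59, cell NMP, leaf LGC (Eichler–Shimura at `p`), piece EIG — the datum form (helper590).

`H` a Hecke–Galois datum of level `N` away from `S ∋ p` (`p` odd), `P` a local `p`-adic point of
its coefficient ring, `α` the unramified Frobenius eigenvalue of `ρ_P = H.ρ ⊗_P P.O` at `p`
(`NMP.UnrFrobAt`), `E` an adic eigenmodule of `P.χ ∘ H.π` which satisfies GEO-REL for
`F² - a F + p` (`F = E.ρ φ`) at every place over `p` and every Frobenius element `φ` there.  Then

    α² - a α + p = 0.

Inputs from main: REL (`S32.H692.rel`), Burnside (`S31.H202.span_range_rho_eq_top`), the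
determinant is cyclotomic (`S59.H540`), total ramification of `ℚ(ζ_p)` at `p` (`S59.H659`),
existence of Frobenius elements (`S37.H99`), the residual part of `S33.H692` (Boston–Lenstra–Ribet
over the residue field).
-/
import Fermat.Agent.S33.H692.OrdEigen
import Fermat.Agent.S37.H99.FrobAt
import Fermat.Agent.S59.NMP.Spec
import Fermat.Agent.S59.NMP.H590.EigFrob
import Fermat.Agent.S59.NMP.H590.GeoRel

set_option autoImplicit false
set_option linter.style.haveILetI false

noncomputable section

namespace Fermat.Agent.S59.NMP.H590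

open IsLocalRing TensorProduct Fermat.Agent.S31 Fermat.Agent.S33

/-! ### Base change of the span of the image -/

/-- If the image of `r` spans `End_A V` (`V` free of rank two), the image of its base change spans
`End_B (B ⊗ V)`. -/
theorem span_range_baseChange_eq_top {A B : Type*} [CommRing A] [CommRing B] [Algebra A B]
    {V : Type*} [AddCommGroup V] [Module A V] (b : Module.Basis (Fin 2) A V)
    {G : Type*} (r : G → Module.End A V) (h : Submodule.span A (Set.range r) = ⊤) :
    Submodule.span B (Set.range fun g => (r g).baseChange B) = ⊤ := by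
  classical
  have h1 : ∀ f : Module.End A V,
      f.baseChange B ∈ Submodule.span B (Set.range fun g => (r g).baseChange B) := by
    intro f
    have hf : f ∈ Submodule.span A (Set.range r) := by
      rw [h]
      exact Submodule.mem_top
    induction hf using Submodule.span_induction with
    | mem x hx =>
      obtain ⟨g, rfl⟩ := hx
      exact Submodule.subset_span ⟨g, rfl⟩
    | zero =>
      rw [LinearMap.baseChange_zero]
      exact zero_mem _
    | add x y _ _ hx hy =>
      rw [LinearMap.baseChange_add]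
      exact add_mem hx hy
    | smul a x _ hx =>
      rw [LinearMap.baseChange_smul, ← algebraMap_smul B a (x.baseChange B)]
      exact Submodule.smul_mem _ _ hx
  rw [eq_top_iff]
  intro g _
  have hE : ∀ i j : Fin 2, LinearMap.toMatrix (Algebra.TensorProduct.basis B b)
      (Algebra.TensorProduct.basis B b)
      (LinearMap.baseChange B (Matrix.toLin b b (Matrix.single i j (1 : A))))
      = Matrix.single i j (1 : B) := by
    intro i j
    rw [LinearMap.toMatrix_baseChange, LinearMap.toMatrix_toLin, Matrix.map_single, map_one]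
  have hg : g = ∑ i, ∑ j, (LinearMap.toMatrix (Algebra.TensorProduct.basis B b)
      (Algebra.TensorProduct.basis B b) g i j) •
      (LinearMap.baseChange B (Matrix.toLin b b (Matrix.single i j (1 : A)))) := by
    apply (LinearMap.toMatrix (Algebra.TensorProduct.basis B b)
      (Algebra.TensorProduct.basis B b)).injective
    rw [map_sum]
    conv_lhs => rw [Matrix.matrix_eq_sum_single (LinearMap.toMatrix
      (Algebra.TensorProduct.basis B b) (Algebra.TensorProduct.basis B b) g)]
    refine Finset.sum_congr rfl fun i _ => ?_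
    rw [map_sum]
    refine Finset.sum_congr rfl fun j _ => ?_
    rw [map_smul, hE, Matrix.smul_single, smul_eq_mul, mul_one]
  rw [hg]
  exact Submodule.sum_mem _ fun i _ => Submodule.sum_mem _ fun j _ =>
    Submodule.smul_mem _ _ (h1 _)

section BaseChange

variable {A B : Type} [CommRing A] [IsLocalRing A] [CommRing B] [IsLocalRing B]

/-- Trace of a base change. -/
theorem trace_baseChangeAlong590 (f : A →+* B) (hf : IsLocalHom f) (ρ : GaloisRepAdic A)
    (σ : GQ) :
    LinearMap.trace B (ρ.baseChangeAlong f hf).V ((ρ.baseChangeAlong f hf).ρ σ)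
      = f (LinearMap.trace A ρ.V (ρ.ρ σ)) := by
  letI : Algebra A B := f.toAlgebra
  exact LinearMap.trace_baseChange (ρ.ρ σ) B

/-- Determinant of a base change. -/
theorem det_baseChangeAlong590 (f : A →+* B) (hf : IsLocalHom f) (ρ : GaloisRepAdic A)
    (σ : GQ) :
    LinearMap.det ((ρ.baseChangeAlong f hf).ρ σ) = f (LinearMap.det (ρ.ρ σ)) := by
  letI : Algebra A B := f.toAlgebra
  exact LinearMap.det_baseChange (ρ.ρ σ)

/-- The image of a base change spans the endomorphism ring if the image of the representation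
does. -/
theorem span_range_baseChangeAlong590 (f : A →+* B) (hf : IsLocalHom f) (ρ : GaloisRepAdic A)
    (h : Submodule.span A (Set.range ρ.ρ) = ⊤) :
    Submodule.span B (Set.range (ρ.baseChangeAlong f hf).ρ) = ⊤ := by
  letI : Algebra A B := f.toAlgebra
  exact span_range_baseChange_eq_top (Module.finBasisOfFinrankEq A ρ.V ρ.finrank_eq)
    (fun g => ρ.ρ g) h

/-- **DETI.**  If `det ρ` is cyclotomic (`p` odd), some element of the inertia group at a place
over `p` has determinant `≠ 1`, after any specialisation to a local ring of residue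
characteristic `p`. -/
theorem exists_inertia_det_ne_one590 (ρ : GaloisRepAdic A) {p : ℕ} (hp : p.Prime) (hp2 : p ≠ 2)
    (hdet : ρ.DetIsCyclotomic p) (f : A →+* B) (hpB : (p : B) ∈ maximalIdeal B)
    (P : ValuationSubring (AlgebraicClosure ℚ)) (hP : P.LiesOverPrime p) :
    ∃ τ ∈ P.inertiaSubgroupIn ℚ, f (LinearMap.det (ρ.ρ τ)) ≠ 1 := by
  obtain ⟨τ, hτ, hne⟩ := Fermat.Agent.S59.H659.exists_inertia_cycExp_ne_one p hp hp2 P hP
  obtain ⟨c, hc⟩ := Fermat.Agent.S59.H659.exists_isCycExp p hp.ne_zero τ
  refine ⟨τ, hτ, fun h1 => hne c hc ?_⟩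
  have h2 := hdet.2 1 τ c (fun μ hμ => hc μ (by rwa [pow_one] at hμ))
  rw [pow_one, Ideal.mem_span_singleton] at h2
  obtain ⟨d, hd⟩ := h2
  have h3 : (1 : B) - (c : B) = (p : B) * f d := by
    have := congrArg f hd
    rwa [map_sub, h1, map_natCast, map_mul, map_natCast] at this
  have h4 : (1 : B) - (c : B) ∈ maximalIdeal B := by
    rw [h3]
    exact Ideal.mul_mem_right _ _ hpB
  have hp0 : ((p : ℕ) : ResidueField B) = 0 := by
    rw [← map_natCast (residue B)]
    exact (residue_eq_zero_iff _).mpr hpB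
  haveI : CharP (ResidueField B) p := (CharP.charP_iff_prime_eq_zero hp).mpr hp0
  have h5 : ((c : ℕ) : ResidueField B) = ((1 : ℕ) : ResidueField B) := by
    have := (residue_eq_zero_iff _).mpr h4
    rw [map_sub, map_one, map_natCast, sub_eq_zero] at this
    rw [Nat.cast_one]
    exact this.symm
  exact (CharP.natCast_eq_natCast (ResidueField B) p).mp h5

end BaseChange

/-! ### The root theorem for a datum -/

/-- **EIG, datum form.**  See the header. -/
theorem root_of_eigenModule (p : ℕ) [Fact p.Prime] (hp2 : p ≠ 2) (N : ℕ) [NeZero N]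
    (S : Finset ℕ) (hpS : p ∈ S) (hNS : ∀ q : ℕ, q.Prime → q ∣ N → q ∈ S)
    (𝒪 : Type) [CommRing 𝒪] [IsDomain 𝒪] [IsDiscreteValuationRing 𝒪]
    [IsAdicComplete (maximalIdeal 𝒪) 𝒪]
    (θ : CuspForm.heckeAlgebra N 2 (↑S : Set ℕ) →+* ResidueField 𝒪)
    (T : Type) [CommRing T] [IsLocalRing T] [IsNoetherianRing T]
    [IsAdicComplete (maximalIdeal T) T] [Algebra 𝒪 T] [IsLocalHom (algebraMap 𝒪 T)]
    [Module.Finite 𝒪 T] [Module.Free 𝒪 T]
    (H : CuspForm.HeckeGaloisRepDatum N (↑S : Set ℕ) 𝒪 θ T)
    (P : PadicPoint p T) (hloc : IsLocalHom P.χ)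
    (α : P.O) (hα : UnrFrobAt (H.ρ.baseChangeAlong P.χ hloc) p α)
    (E : Fermat.Agent.S30.H990.AdicEigenModule p N S P.O (P.χ.comp H.π)) (a : P.O)
    (hgeo : ∀ Pl : ValuationSubring Qb, Pl.LiesOverPrime p →
      ∀ φ : GQ, Pl.IsFrobeniusAt φ p →
        GeoRelAt E.ρ (Pl.inertiaSubgroupIn ℚ) (esEnd (E.ρ φ) a p)) :
    α ^ 2 - a * α + (p : P.O) = 0 := by
  have hp : p.Prime := Fact.out
  obtain ⟨Pl, hPl, L, ⟨b, rfl⟩, hD, hI, hF⟩ := hα
  obtain ⟨φ, hφ⟩ := Fermat.Agent.S37.H99.exists_isFrobeniusAt p hp Pl hPl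
  have hspanT := Fermat.Agent.S31.H202.span_range_rho_eq_top H.ρ H.residual_absIrr
  have hspan := span_range_baseChangeAlong590 P.χ hloc H.ρ hspanT
  have hrel0 := Fermat.Agent.S32.H692.rel p N S hpS hNS 𝒪 θ T H P hloc E
  have hrel : ∀ g : GQ, E.ρ g * E.ρ g
      - (LinearMap.trace P.O (H.ρ.baseChangeAlong P.χ hloc).V
          ((H.ρ.baseChangeAlong P.χ hloc).ρ g)) • E.ρ g
      + (LinearMap.det ((H.ρ.baseChangeAlong P.χ hloc).ρ g)) • (1 : Module.End P.O E.M) = 0 := by
    intro g
    rw [trace_baseChangeAlong590, det_baseChangeAlong590]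
    exact hrel0 g
  have h2u : IsUnit (2 : P.O) := Fermat.Agent.S33.H692.isUnit_two_of_odd_mem hp hp2 P.hp
  have hpT : (p : T) ∈ maximalIdeal T := by
    rw [mem_maximalIdeal, mem_nonunits_iff]
    intro hu
    have h1 : IsUnit (P.χ (p : T)) := hu.map P.χ
    rw [map_natCast] at h1
    exact (mem_nonunits_iff.mp ((mem_maximalIdeal _).mp P.hp)) h1
  have hdetc : H.ρ.DetIsCyclotomic p :=
    Fermat.Agent.S59.H540.heckeGaloisRepDatum_detIsCyclotomic S H p hpT
  obtain ⟨τ, hτ, hτdet⟩ := exists_inertia_det_ne_one590 H.ρ hp hp2 hdetc P.χ P.hp Pl hPl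
  have hτdet' : LinearMap.det ((H.ρ.baseChangeAlong P.χ hloc).ρ τ) ≠ 1 := by
    rw [det_baseChangeAlong590]
    exact hτdet
  exact root_of_line (H.ρ.baseChangeAlong P.χ hloc) p α a Pl b hD hI hF hφ hτ hτdet' E.ρ hspan
    h2u hrel (hgeo Pl hPl φ hφ)

end Fermat.Agent.S59.NMP.H590

end
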