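/-
Row S59, cell NMP, leaf LGC (Eichler–Shimura at `p`), piece EIG — the Tate eigenmodule of
`Hom_ℤ(𝒪, J)`, explicit form (helper590).

The conclusions of `S33.exists_geo_homEigenmodule` (helper409, helper32; `S30.H529`) for the
EXPLICIT module `M = tateEigen p (post ∘ t) a` and action `tateRep (preHomRep 𝒪 J)`:
free, finite, continuous, unramified, quadratic relations, and `seqOfHom p f ∈ M` (nonzero) for an
eigen-homomorphism `f : Frac 𝒪 / 𝒪 → J`.  (Same proofs; the module is not hidden in `∃`.)
-/
import Fermat.Agent.S33.EigB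

set_option autoImplicit false
set_option linter.style.haveILetI false
set_option linter.unusedSectionVars false

noncomputable section

namespace Fermat.Agent.S59.NMP.H590

open IsLocalRing Fermat.Agent.S30 Fermat.Agent.S31 Fermat.Agent.S33

section Props

variable {p : ℕ}
variable {O : Type} [CommRing O] [IsDomain O] [IsDiscreteValuationRing O]
  [IsAdicComplete (IsLocalRing.maximalIdeal O) O] [Finite (IsLocalRing.ResidueField O)]
  [CharZero O]
variable {J : Type} [AddCommGroup J] [DistribMulAction GQ J]
variable {ι : Type} (t : ι → J →+ J) (a : ι → O)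

/-- The Galois action commutes with the operators on `Hom_ℤ(𝒪, J)`. -/
theorem preHomRep_post_comm (ht : ∀ i (σ : GQ) (x : J), σ • t i x = t i (σ • x))
    (σ : GQ) (i : ι) (h : H529.PreHom O J) :
    H529.preHomRep O J σ (H529.PreHom.post (t i) h)
      = H529.PreHom.post (t i) (H529.preHomRep O J σ h) := by
  apply H529.PreHom.ext
  intro x
  simp only [H529.preHomRep_apply, H529.PreHom.post_apply]
  exact ht i σ _

/-- Values of a `p ^ k`-torsion element of `Hom_ℤ(𝒪, J)`. -/
theorem preHom_val_torsion (k : ℕ) (h : H529.PreHom O J) (hh : (p : O) ^ k • h = 0) (x : O) :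
    p ^ k • H529.PreHom.toHom h x = 0 := by
  rw [← H529.PreHom.natCast_pow_smul_apply, hh]
  rfl

theorem tateEigen_fg_torsion (hp : p.Prime) (hfin : {x : J | p • x = 0}.Finite) :
    ∃ Y : Submodule O (H529.PreHom O J), Y.FG ∧
      ∀ h : H529.PreHom O J, (p : O) • h = 0 → h ∈ Y := by
  have hϖ0 : (p : O) ≠ 0 := by exact_mod_cast hp.ne_zero
  have hfinX := H529.preHom_torsion_finite (O := O) (J := J) p hϖ0 hfin
  exact ⟨Submodule.span O {h : H529.PreHom O J | (p : O) • h = 0},
    Submodule.fg_span hfinX, fun h hh => Submodule.subset_span hh⟩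

/-- The Tate eigenmodule is free. -/
theorem tateEigen_free590 (hp : p.Prime) (hpO : (p : O) ∈ IsLocalRing.maximalIdeal O)
    (hfin : {x : J | p • x = 0}.Finite) :
    Module.Free O ↥(H529.tateEigen (p : O) (fun i => H529.PreHom.post (t i)) a) := by
  have hϖ0 : (p : O) ≠ 0 := by exact_mod_cast hp.ne_zero
  exact H529.tateEigen_free (t := fun i => H529.PreHom.post (t i)) (a := a) hpO hϖ0
    (tateEigen_fg_torsion hp hfin)

/-- The Tate eigenmodule is finite. -/
theorem tateEigen_finite590 (hp : p.Prime) (hpO : (p : O) ∈ IsLocalRing.maximalIdeal O)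
    (hfin : {x : J | p • x = 0}.Finite) :
    Module.Finite O ↥(H529.tateEigen (p : O) (fun i => H529.PreHom.post (t i)) a) := by
  have hϖ0 : (p : O) ≠ 0 := by exact_mod_cast hp.ne_zero
  exact H529.tateEigen_finite (t := fun i => H529.PreHom.post (t i)) (a := a) hpO hϖ0
    (tateEigen_fg_torsion hp hfin)

/-- The sequence of an eigen-homomorphism lies in the Tate eigenmodule. -/
theorem seqOfHom_mem_tateEigen (hp : p.Prime)
    (f : FractionRing O →+ J) (hf0 : ∀ r : O, f (algebraMap O (FractionRing O) r) = 0)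
    (hfe : ∀ i x, t i (f x) = f (algebraMap O (FractionRing O) (a i) * x)) :
    H529.seqOfHom p f ∈ H529.tateEigen (p : O) (fun i => H529.PreHom.post (t i)) a := by
  have hϖ0 : (p : O) ≠ 0 := by exact_mod_cast hp.ne_zero
  have hpL : algebraMap O (FractionRing O) (p : O) ≠ 0 := by
    intro h
    exact hϖ0 ((IsFractionRing.injective O (FractionRing O)) (by rw [h, map_zero]))
  refine ⟨?_, ?_, ?_⟩
  · apply H529.PreHom.ext
    intro x
    rw [H529.PreHom.smul_apply, H529.seqOfHom_apply,
      (algebraMap O (FractionRing O)).map_mul]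
    have : algebraMap O (FractionRing O) (p : O) * algebraMap O (FractionRing O) x
        * (algebraMap O (FractionRing O) (p : O) ^ (0 + 1))⁻¹
        = algebraMap O (FractionRing O) x := by
      field_simp
      ring
    rw [this, hf0]
    rfl
  · intro n
    apply H529.PreHom.ext
    intro x
    rw [H529.PreHom.smul_apply, H529.seqOfHom_apply, H529.seqOfHom_apply,
      (algebraMap O (FractionRing O)).map_mul]
    congr 1
    field_simp
    ring
  · intro i n
    apply H529.PreHom.ext
    intro x
    rw [H529.PreHom.smul_apply, H529.seqOfHom_apply]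
    simp only [H529.PreHom.post_apply]
    rw [H529.seqOfHom_apply, hfe, (algebraMap O (FractionRing O)).map_mul, mul_assoc]

/-- Every element of `Frac 𝒪` is `o / p ^ (k + 1)`. -/
theorem exists_eq_div_pow (hp : p.Prime) (hpO : (p : O) ∈ IsLocalRing.maximalIdeal O)
    (y : FractionRing O) :
    ∃ (k : ℕ) (o : O), y = algebraMap O (FractionRing O) o
      * (algebraMap O (FractionRing O) (p : O) ^ (k + 1))⁻¹ := by
  have hϖ0 : (p : O) ≠ 0 := by exact_mod_cast hp.ne_zero
  have hpL : algebraMap O (FractionRing O) (p : O) ≠ 0 := by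
    intro h
    exact hϖ0 ((IsFractionRing.injective O (FractionRing O)) (by rw [h, map_zero]))
  obtain ⟨x, s, hs, rfl⟩ := IsFractionRing.div_surjective (A := O) y
  have hs0 : s ≠ 0 := nonZeroDivisors.ne_zero hs
  obtain ⟨k, c, hc⟩ := H529.exists_dvd_pow_of_mem_maximalIdeal hpO hs0
  have hsL : algebraMap O (FractionRing O) s ≠ 0 := by
    intro h
    exact hs0 ((IsFractionRing.injective O (FractionRing O)) (by rw [h, map_zero]))
  refine ⟨k, x * c * (p : O), ?_⟩
  have h3 : algebraMap O (FractionRing O) (p : O) ^ k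
      = algebraMap O (FractionRing O) s * algebraMap O (FractionRing O) c := by
    rw [← map_pow, hc, map_mul]
  rw [pow_succ, h3, (algebraMap O (FractionRing O)).map_mul,
    (algebraMap O (FractionRing O)).map_mul]
  have hcL : algebraMap O (FractionRing O) c ≠ 0 := by
    intro h
    rw [h, mul_zero] at h3
    exact hpL (pow_eq_zero_iff (by
      intro hk
      subst hk
      simp at h3) |>.mp h3)
  field_simp

/-- The sequence of a nonzero homomorphism is nonzero. -/
theorem seqOfHom_ne_zero (hp : p.Prime) (hpO : (p : O) ∈ IsLocalRing.maximalIdeal O)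
    (f : FractionRing O →+ J) (hf : f ≠ 0) : H529.seqOfHom (O := O) p f ≠ 0 := by
  intro h0
  apply hf
  apply AddMonoidHom.ext
  intro y
  obtain ⟨k, o, rfl⟩ := exists_eq_div_pow hp hpO y
  have h1 := congrArg (fun h => H529.PreHom.toHom h o) (congrFun h0 k)
  simp only [H529.seqOfHom_apply] at h1
  rw [h1]
  rfl

variable (hρ : ∀ (σ : GQ) (i : ι) (h : H529.PreHom O J),
      H529.preHomRep O J σ (H529.PreHom.post (t i) h)
        = H529.PreHom.post (t i) (H529.preHomRep O J σ h))

/-- The action on the Tate eigenmodule is continuous. -/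
theorem tateRep_cont590 (hpO : (p : O) ∈ IsLocalRing.maximalIdeal O)
    (hsm : ∀ x : J, ∃ L : IntermediateField ℚ (AlgebraicClosure ℚ), FiniteDimensional ℚ L ∧
      ∀ σ : GQ, (∀ y ∈ L, σ y = y) → σ • x = x)
    (hfin : {x : J | p • x = 0}.Finite) :
    GaloisActionIsAdicContinuous O
      (H529.tateRep (ϖ := (p : O)) (t := fun i => H529.PreHom.post (t i)) (a := a)
        (H529.preHomRep O J) hρ) := by
  intro n
  obtain ⟨L, hL, hLfix⟩ := H529.exists_common_level {x : J | p ^ n • x = 0}
    (H529.finite_torsion_pow J p hfin n) (fun x _ => hsm x)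
  refine ⟨L, hL, fun σ hσ m => ?_⟩
  apply H529.tateRep_sub_mem (H529.preHomRep O J) hρ hpO n σ
  intro h hh
  apply H529.PreHom.ext
  intro x
  rw [H529.preHomRep_apply]
  exact hLfix σ hσ _ (preHom_val_torsion n h hh x)

/-- The action on the Tate eigenmodule is trivial where the action on the torsion is. -/
theorem tateRep_unram590 (σ : GQ)
    (hσ : ∀ x : J, (∃ n : ℕ, p ^ n • x = 0) → σ • x = x) :
    H529.tateRep (ϖ := (p : O)) (t := fun i => H529.PreHom.post (t i)) (a := a)
      (H529.preHomRep O J) hρ σ = 1 := by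
  apply H529.tateRep_eq_one
  rintro h ⟨k, hh⟩
  apply H529.PreHom.ext
  intro x
  rw [H529.preHomRep_apply]
  exact hσ _ ⟨k, preHom_val_torsion k h hh x⟩

/-- Quadratic relations on the Tate eigenmodule. -/
theorem tateRep_quad590 (i : ι) (n : ℕ) (σ : GQ)
    (hσ : ∀ x : J, (∃ k : ℕ, p ^ k • x = 0) → σ • σ • x - t i (σ • x) + n • x = 0) :
    H529.tateRep (ϖ := (p : O)) (t := fun i => H529.PreHom.post (t i)) (a := a)
        (H529.preHomRep O J) hρ σ *
      H529.tateRep (ϖ := (p : O)) (t := fun i => H529.PreHom.post (t i)) (a := a)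
        (H529.preHomRep O J) hρ σ
      - a i • H529.tateRep (ϖ := (p : O)) (t := fun i => H529.PreHom.post (t i)) (a := a)
        (H529.preHomRep O J) hρ σ
      + (n : O) • (1 : Module.End O
          ↥(H529.tateEigen (p : O) (fun i => H529.PreHom.post (t i)) a)) = 0 := by
  apply H529.tateRep_quadratic
  rintro h ⟨k, hh⟩
  apply H529.PreHom.ext
  intro x
  have h1 := hσ (H529.PreHom.toHom h x) ⟨k, preHom_val_torsion k h hh x⟩
  simp only [H529.PreHom.toHom_add, H529.PreHom.toHom_sub, AddMonoidHom.add_apply,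
    AddMonoidHom.sub_apply, H529.preHomRep_apply, H529.PreHom.post_apply,
    H529.PreHom.natCast_smul_apply, H529.PreHom.toHom_zero, AddMonoidHom.zero_apply]
  exact h1

end Props

end Fermat.Agent.S59.NMP.H590

end
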