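/-
Row S59, cell NMP, leaf LGC (Eichler–Shimura at `p`), piece EIG — operator form, pure algebra
(helper590).

`M` a Noetherian module over a domain `O` with an action `ρM` of a group `G`, `I ⊆ G`,
`F = ρM φ`, `T` an endomorphism of `M` commuting with `F` and with the action.

* `restrictRep` : the action on a stable submodule.
* `esOp F T p = F² - T F + p` (the Eichler–Shimura operator, `T = T_p`).
* `satRange U` : the saturation of the range of `U`.
* `op_eq_of_geoSub` : if `c (F - α) M ⊆ I_aug M` for some `c ≠ 0` and every stable saturated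
  submodule `W` with `a₀ W ⊆ I_aug M + (F² - T F + p) M` (`a₀ ≠ 0`) vanishes, then
  `α T = α² + p` on `M`.
-/
import Mathlib
import Fermat.Agent.S33.H692.OrdAlg
import Fermat.Agent.S59.NMP.H590.EigAlg

set_option autoImplicit false

noncomputable section

namespace Fermat.Agent.S59.NMP.H590

open Module IsLocalRing Fermat.Agent.S33.H692

section Restrict

variable {O : Type*} [CommRing O] {M : Type*} [AddCommGroup M] [Module O M]
  {G : Type*} [Group G]

/-- The action on a stable submodule. -/
def restrictRep (ρM : G →* Module.End O M) (W : Submodule O M)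
    (h : ∀ g : G, ∀ m ∈ W, ρM g m ∈ W) : G →* Module.End O W where
  toFun g := (ρM g).restrict (h g)
  map_one' := by
    apply LinearMap.ext
    intro m
    apply Subtype.ext
    rw [LinearMap.coe_restrict_apply, map_one]
    rfl
  map_mul' g g' := by
    apply LinearMap.ext
    intro m
    apply Subtype.ext
    rw [LinearMap.coe_restrict_apply, map_mul]
    rfl

theorem restrictRep_apply_coe (ρM : G →* Module.End O M) (W : Submodule O M)
    (h : ∀ g : G, ∀ m ∈ W, ρM g m ∈ W) (g : G) (m : W) :
    ((restrictRep ρM W h g m : W) : M) = ρM g (m : M) := rfl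

/-- Quadratic relations restrict to stable submodules. -/
theorem restrictRep_rel (ρM : G →* Module.End O M) (W : Submodule O M)
    (h : ∀ g : G, ∀ m ∈ W, ρM g m ∈ W) (g : G) (tr d : O)
    (hrel : ρM g * ρM g - tr • ρM g + d • (1 : Module.End O M) = 0) :
    restrictRep ρM W h g * restrictRep ρM W h g - tr • restrictRep ρM W h g
      + d • (1 : Module.End O W) = 0 := by
  apply LinearMap.ext
  intro m
  apply Subtype.ext
  have h1 := congrArg (fun E : Module.End O M => E (m : M)) hrel
  show ρM g (ρM g (m : M)) - tr • ρM g (m : M) + d • (m : M) = 0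
  simpa using h1

end Restrict

section Op

variable {O : Type*} [CommRing O] {M : Type*} [AddCommGroup M] [Module O M]

/-- The Eichler–Shimura operator `F² - T F + p`. -/
def esOp (F T : Module.End O M) (p : ℕ) : Module.End O M :=
  F * F - T * F + (p : O) • (1 : Module.End O M)

theorem esOp_apply (F T : Module.End O M) (p : ℕ) (x : M) :
    esOp F T p x = F (F x) - T (F x) + (p : O) • x := rfl

/-- `(α² - α T + p) x = (F² - T F + p) x - (F - α) (F x + α x - T x)` if `T F = F T`. -/
theorem op_smul_eq (F T : Module.End O M) (hTF : ∀ x, T (F x) = F (T x)) (α : O) (p : ℕ)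
    (x : M) :
    α ^ 2 • x - α • T x + (p : O) • x =
      esOp F T p x - (F (F x + α • x - T x) - α • (F x + α • x - T x)) := by
  rw [esOp_apply]
  simp only [map_add, map_sub, map_smul, smul_add, smul_sub, smul_smul, hTF]
  have e1 : α ^ 2 = α * α := sq α
  rw [e1]
  abel

variable [IsDomain O]

/-- The saturation of the range of an endomorphism. -/
def satRange (U : Module.End O M) : Submodule O M where
  carrier := {m | ∃ a : O, a ≠ 0 ∧ a • m ∈ LinearMap.range U}
  zero_mem' := ⟨1, one_ne_zero, by rw [smul_zero]; exact zero_mem _⟩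
  add_mem' := by
    rintro m m' ⟨a, ha, hm⟩ ⟨a', ha', hm'⟩
    refine ⟨a * a', mul_ne_zero ha ha', ?_⟩
    rw [smul_add]
    refine add_mem ?_ ?_
    · rw [mul_comm, mul_smul]
      exact Submodule.smul_mem _ _ hm
    · rw [mul_smul]
      exact Submodule.smul_mem _ _ hm'
  smul_mem' := by
    rintro b m ⟨a, ha, hm⟩
    refine ⟨a, ha, ?_⟩
    rw [smul_comm]
    exact Submodule.smul_mem _ _ hm

theorem range_le_satRange (U : Module.End O M) : LinearMap.range U ≤ satRange U := by
  intro m hm
  exact ⟨1, one_ne_zero, by rwa [one_smul]⟩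

theorem satRange_saturated (U : Module.End O M) {b : O} (hb : b ≠ 0) {m : M}
    (hm : b • m ∈ satRange U) : m ∈ satRange U := by
  obtain ⟨a, ha, h⟩ := hm
  exact ⟨a * b, mul_ne_zero ha hb, by rwa [mul_smul]⟩

/-- A common denominator: `a₁ (satRange U) ⊆ range U` for some `a₁ ≠ 0`. -/
theorem exists_smul_satRange_le [IsNoetherian O M] (U : Module.End O M) :
    ∃ a : O, a ≠ 0 ∧ ∀ m ∈ satRange U, a • m ∈ LinearMap.range U := by
  classical
  obtain ⟨s, hs⟩ := (IsNoetherian.noetherian (satRange U) : (satRange U).FG)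
  have hsm : ∀ m ∈ s, ∃ a : O, a ≠ 0 ∧ a • m ∈ LinearMap.range U := by
    intro m hm
    have : m ∈ satRange U := by
      rw [← hs]
      exact Submodule.subset_span hm
    exact this
  choose! d hd0 hd using hsm
  refine ⟨∏ m ∈ s, d m, Finset.prod_ne_zero_iff.mpr hd0, ?_⟩
  intro m hm
  rw [← hs] at hm
  induction hm using Submodule.span_induction with
  | mem x hx =>
    have hx' : x ∈ s := hx
    rw [← Finset.mul_prod_erase s d hx', mul_comm, mul_smul]
    exact Submodule.smul_mem _ _ (hd x hx')
  | zero =>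
    rw [smul_zero]
    exact zero_mem _
  | add x y _ _ hx hy =>
    rw [smul_add]
    exact add_mem hx hy
  | smul b x _ hx =>
    rw [smul_comm]
    exact Submodule.smul_mem _ _ hx

variable {G : Type*} [Group G]

/-- **EIG, operator form, pure algebra.**  See the header. -/
theorem op_eq_of_geoSub [IsNoetherian O M] (ρM : G →* Module.End O M) (I : Set G)
    (F T : Module.End O M) (hTF : ∀ x, T (F x) = F (T x))
    (hTρ : ∀ (g : G) (x : M), T (ρM g x) = ρM g (T x))
    (α : O) (p : ℕ) (c : O) (hc : c ≠ 0)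
    (hfrob : ∀ x : M, c • (F x - α • x) ∈ augSub I ρM)
    (hgeo : ∀ W : Submodule O M, (∀ g : G, ∀ m ∈ W, ρM g m ∈ W) →
      (∀ b : O, b ≠ 0 → ∀ m : M, b • m ∈ W → m ∈ W) →
      (∃ a₀ : O, a₀ ≠ 0 ∧ ∀ m ∈ W, a₀ • m ∈ augSub I ρM ⊔ LinearMap.range (esOp F T p)) →
      W = ⊥)
    (x : M) : α • T x = (α ^ 2 + (p : O)) • x := by
  -- the operator `U = α² - α T + p`
  set U : Module.End O M := (α ^ 2 + (p : O)) • (1 : Module.End O M) - α • T with hU
  have hUapp : ∀ y, U y = α ^ 2 • y - α • T y + (p : O) • y := by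
    intro y
    rw [hU]
    show (α ^ 2 + (p : O)) • y - α • T y = _
    rw [add_smul]
    abel
  have hUρ : ∀ (g : G) (y : M), U (ρM g y) = ρM g (U y) := by
    intro g y
    simp only [hUapp, hTρ, map_add, map_sub, map_smul]
  -- `c • U y ∈ I_aug M + E M`
  have hcU : ∀ y, c • U y ∈ augSub I ρM ⊔ LinearMap.range (esOp F T p) := by
    intro y
    rw [hUapp, op_smul_eq F T hTF α p y, smul_sub]
    refine Submodule.sub_mem _ (Submodule.mem_sup_right ?_) (Submodule.mem_sup_left (hfrob _))
    exact ⟨c • y, by rw [map_smul]⟩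
  have hW := hgeo (satRange U) ?_ (fun b hb m hm => satRange_saturated U hb hm) ?_
  · have hx : U x ∈ satRange U := range_le_satRange U ⟨x, rfl⟩
    rw [hW, Submodule.mem_bot, hUapp] at hx
    have h1 : α • T x = α ^ 2 • x + (p : O) • x := by
      have h2 : α ^ 2 • x + (p : O) • x - α • T x = 0 := by
        rw [← hx]
        abel
      exact (sub_eq_zero.mp h2).symm
    rw [h1, add_smul]
  · rintro g m ⟨a, ha, y, hy⟩
    refine ⟨a, ha, ρM g y, ?_⟩
    rw [hUρ, hy, map_smul]
  · obtain ⟨a₁, ha₁, h⟩ := exists_smul_satRange_le U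
    refine ⟨c * a₁, mul_ne_zero hc ha₁, fun m hm => ?_⟩
    obtain ⟨y, hy⟩ := h m hm
    rw [mul_smul, ← hy]
    exact hcU y

end Op

end Fermat.Agent.S59.NMP.H590

end
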