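/-
Row S59, cell NMP, leaf LGC (Eichler–Shimura at `p`), piece EIG — operator form, Galois part
(helper590).

`ρ : GaloisRepAdic O` (`O` a local principal ideal domain, `2` a unit) with the data of
`NMP.UnrFrobAt ρ p α` at a place `P ∣ p` (line `L = O b₀`), `det ρ` ramified at `P`; `M` a finite
free `O`-module with Galois action `ρM` satisfying the quadratic relations of `ρ`.

* `exists_frob_const_of_line` (FROB) : `c (ρM φ - α) M ⊆ I_aug M` for some `c ≠ 0`.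
* `eq_bot_of_line` (residual part) : a stable submodule `W` with `W = I_aug W + 𝔪 W` is `0`.
* `op_scalar_of_line` : if `T ∈ End M` commutes with the action and GEO-SUB holds for
  `F² - T F + p` (`F = ρM φ`), then `α T = α² + p` on `M`.
-/
import Fermat.Agent.S59.NMP.H590.EigFrob
import Fermat.Agent.S59.NMP.H590.EigOp

set_option autoImplicit false
set_option linter.style.haveILetI false

noncomputable section

namespace Fermat.Agent.S59.NMP.H590

open Module IsLocalRing Fermat.Agent.S33.H692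

section Line

variable {O : Type} [CommRing O] [IsDomain O] [IsLocalRing O]

/-- **FROB for an ordinary line.**  (First half of the proof of `root_of_line_of_ne`.) -/
theorem exists_frob_const_of_line (ρ : GaloisRepAdic O) (p : ℕ) (α : O)
    (P : ValuationSubring (AlgebraicClosure ℚ))
    (b : Module.Basis (Fin 2) O ρ.V)
    (hD : ∀ σ ∈ P.decompositionSubgroup ℚ, ∀ v ∈ (O ∙ b 0), ρ.ρ σ v ∈ (O ∙ b 0))
    (hI : ∀ σ ∈ P.inertiaSubgroupIn ℚ, ∀ v : ρ.V, ρ.ρ σ v - v ∈ (O ∙ b 0))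
    (hF : ∀ σ : GQ, P.IsFrobeniusAt σ p → ∀ v : ρ.V, ρ.ρ σ v - α • v ∈ (O ∙ b 0))
    {φ τ : GQ} (hφ : P.IsFrobeniusAt φ p) (hτ : τ ∈ P.inertiaSubgroupIn ℚ)
    (hτdet : LinearMap.det (ρ.ρ τ) ≠ 1)
    {M : Type} [AddCommGroup M] [Module O M] (ρM : GQ →* Module.End O M)
    (hrel : ∀ g : GQ, ρM g * ρM g - (LinearMap.trace O ρ.V (ρ.ρ g)) • ρM g
      + (LinearMap.det (ρ.ρ g)) • (1 : Module.End O M) = 0) :
    ∃ c : O, c ≠ 0 ∧ ∀ x : M,
      c • (ρM φ x - α • x) ∈ augSub (↑(P.inertiaSubgroupIn ℚ) : Set GQ) ρM := by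
  classical
  have hb0 : b 0 ∈ (O ∙ b 0) := Submodule.mem_span_singleton_self _
  have hτD : τ ∈ P.decompositionSubgroup ℚ := mem_decomposition_of_mem_inertiaIn hτ
  have hφτ : P.IsFrobeniusAt (φ * τ) p := isFrobeniusAt_mul_of_mem_inertia hφ hτ
  obtain ⟨β, hβ⟩ := Submodule.mem_span_singleton.mp (hD φ hφ.mem_decompositionSubgroup _ hb0)
  obtain ⟨γ, hγ⟩ := Submodule.mem_span_singleton.mp (hF φ hφ (b 1))
  obtain ⟨δ, hδ⟩ := Submodule.mem_span_singleton.mp (hD τ hτD _ hb0)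
  obtain ⟨γ', hγ'⟩ := Submodule.mem_span_singleton.mp (hI τ hτ (b 1))
  obtain ⟨γ'', hγ''⟩ := Submodule.mem_span_singleton.mp (hF (φ * τ) hφτ (b 1))
  have tφ := trace_det_of_triangular b (ρ.ρ φ) α β γ hβ.symm
    (by rw [hγ]; abel)
  have tτ := trace_det_of_triangular b (ρ.ρ τ) 1 δ γ' hδ.symm
    (by rw [hγ', one_smul]; abel)
  have hφτ0 : ρ.ρ (φ * τ) (b 0) = (β * δ) • b 0 := by
    rw [map_mul, Module.End.mul_apply, ← hδ, map_smul, ← hβ, smul_smul, mul_comm]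
  have tφτ := trace_det_of_triangular b (ρ.ρ (φ * τ)) α (β * δ) γ'' hφτ0
    (by rw [hγ'']; abel)
  have hδ1 : δ ≠ 1 := by
    intro h
    apply hτdet
    rw [tτ.2, h, mul_one]
  have hβ0 : β ≠ 0 := by
    intro h
    have hu : IsUnit (LinearMap.det (ρ.ρ φ)) := by
      have h1 : LinearMap.det (ρ.ρ φ) * LinearMap.det (ρ.ρ φ⁻¹) = 1 := by
        rw [← map_mul, ← map_mul, mul_inv_cancel, map_one, map_one]
      exact IsUnit.of_mul_eq_one _ h1
    rw [tφ.2, h, mul_zero] at hu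
    exact not_isUnit_zero hu
  have r1 := hrel φ
  rw [tφ.1, tφ.2] at r1
  have r2 := hrel (φ * τ)
  rw [tφτ.1, tφτ.2, ← mul_assoc] at r2
  have hnorm : ∀ s ∈ P.inertiaSubgroupIn ℚ, φ * s * φ⁻¹ ∈ P.inertiaSubgroupIn ℚ :=
    fun s hs => conj_mem_inertiaIn P hφ.mem_decompositionSubgroup hs
  exact ⟨β * (δ - 1), mul_ne_zero hβ0 (sub_ne_zero.mpr hδ1), fun x =>
    smul_frob_sub_mem_augSub ρM (P.inertiaSubgroupIn ℚ) hτ hnorm α β δ r1 r2 x⟩

variable [IsPrincipalIdealRing O]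

/-- **Residual part on a stable submodule.**  If `W = I_aug W + 𝔪 W` then `W = 0`. -/
theorem eq_bot_of_line (ρ : GaloisRepAdic O)
    (I : Set GQ) (b : Module.Basis (Fin 2) O ρ.V)
    (hI : ∀ σ ∈ I, ∀ v : ρ.V, ρ.ρ σ v - v ∈ (O ∙ b 0))
    (hspan : Submodule.span O (Set.range ρ.ρ) = ⊤) (h2 : IsUnit (2 : O))
    {M : Type} [AddCommGroup M] [Module O M] [Module.Free O M] [Module.Finite O M]
    (ρM : GQ →* Module.End O M)
    (hrel : ∀ g : GQ, ρM g * ρM g - (LinearMap.trace O ρ.V (ρ.ρ g)) • ρM g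
      + (LinearMap.det (ρ.ρ g)) • (1 : Module.End O M) = 0)
    (W : Submodule O M) (hWG : ∀ g : GQ, ∀ m ∈ W, ρM g m ∈ W)
    (hgeo : augSub (A := O) (M := ↥W) I (restrictRep ρM W hWG) ⊔
      (maximalIdeal O) • (⊤ : Submodule O ↥W) = ⊤) : W = ⊥ := by
  classical
  obtain ⟨n, c⟩ := Submodule.basisOfPid (Module.Free.chooseBasis O M) W
  rcases Nat.eq_zero_or_pos n with hn | hn
  · subst hn
    rw [eq_bot_iff]
    intro m hm
    have h0 : (⟨m, hm⟩ : ↥W) = 0 := by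
      apply c.repr.injective
      ext j
      exact j.elim0
    rw [Submodule.mem_bot]
    exact congrArg Subtype.val h0
  · exfalso
    haveI : Nonempty (Fin n) := ⟨⟨0, hn⟩⟩
    have hcoord0 : ∀ v ∈ (O ∙ b 0), b.coord 1 v = 0 := by
      intro v hv
      obtain ⟨r, rfl⟩ := Submodule.mem_span_singleton.mp hv
      rw [map_smul, Module.Basis.coord_apply, Module.Basis.repr_self, Finsupp.single_apply,
        if_neg (by decide), smul_zero]
    have hne := augSub_sup_ne_top b ρ.ρ (RingHom.id O) c (restrictRep ρM W hWG) hspan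
      (fun g => restrictRep_rel ρM W hWG g _ _ (hrel g)) h2 I (b.coord 1) ⟨b 1, by
        rw [RingHom.id_apply, Module.Basis.coord_apply, Module.Basis.repr_self,
          Finsupp.single_apply, if_pos rfl]
        exact isUnit_one⟩
      (fun σ hσ v => by
        rw [RingHom.id_apply, hcoord0 _ (hI σ hσ v)]
        exact Ideal.zero_mem _)
    exact hne hgeo

/-- **EIG, operator form, Galois part.**  See the header. -/
theorem op_scalar_of_line (ρ : GaloisRepAdic O) (p : ℕ) (α : O)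
    (P : ValuationSubring (AlgebraicClosure ℚ))
    (b : Module.Basis (Fin 2) O ρ.V)
    (hD : ∀ σ ∈ P.decompositionSubgroup ℚ, ∀ v ∈ (O ∙ b 0), ρ.ρ σ v ∈ (O ∙ b 0))
    (hI : ∀ σ ∈ P.inertiaSubgroupIn ℚ, ∀ v : ρ.V, ρ.ρ σ v - v ∈ (O ∙ b 0))
    (hF : ∀ σ : GQ, P.IsFrobeniusAt σ p → ∀ v : ρ.V, ρ.ρ σ v - α • v ∈ (O ∙ b 0))
    {φ τ : GQ} (hφ : P.IsFrobeniusAt φ p) (hτ : τ ∈ P.inertiaSubgroupIn ℚ)
    (hτdet : LinearMap.det (ρ.ρ τ) ≠ 1)
    (hspan : Submodule.span O (Set.range ρ.ρ) = ⊤) (h2 : IsUnit (2 : O))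
    {M : Type} [AddCommGroup M] [Module O M] [Module.Free O M] [Module.Finite O M]
    (ρM : GQ →* Module.End O M)
    (hrel : ∀ g : GQ, ρM g * ρM g - (LinearMap.trace O ρ.V (ρ.ρ g)) • ρM g
      + (LinearMap.det (ρ.ρ g)) • (1 : Module.End O M) = 0)
    (T : Module.End O M) (hTρ : ∀ (g : GQ) (x : M), T (ρM g x) = ρM g (T x))
    (hgeo : ∀ (W : Submodule O M) (hWG : ∀ g : GQ, ∀ m ∈ W, ρM g m ∈ W),
      (∀ m : M, (p : O) • m ∈ W → m ∈ W) →
      (∃ a₀ : O, a₀ ≠ 0 ∧ ∀ m ∈ W, a₀ • m ∈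
        augSub (↑(P.inertiaSubgroupIn ℚ) : Set GQ) ρM ⊔
          LinearMap.range (esOp (ρM φ) T p)) →
      augSub (A := O) (M := ↥W) (↑(P.inertiaSubgroupIn ℚ) : Set GQ) (restrictRep ρM W hWG) ⊔
        (maximalIdeal O) • (⊤ : Submodule O ↥W) = ⊤)
    (hp0 : (p : O) ≠ 0) (x : M) :
    α • T x = (α ^ 2 + (p : O)) • x := by
  obtain ⟨c, hc, hfrob⟩ := exists_frob_const_of_line ρ p α P b hD hI hF hφ hτ hτdet ρM hrel
  haveI : IsNoetherianRing O := inferInstance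
  haveI : IsNoetherian O M := inferInstance
  refine op_eq_of_geoSub ρM (↑(P.inertiaSubgroupIn ℚ) : Set GQ) (ρM φ) T
    (fun y => hTρ φ y) hTρ α p c hc hfrob ?_ x
  intro W hWG hsat ha₀
  exact eq_bot_of_line ρ (↑(P.inertiaSubgroupIn ℚ) : Set GQ) b
    (fun σ hσ v => hI σ (SetLike.mem_coe.mp hσ) v) hspan h2 ρM hrel W hWG
    (hgeo W hWG (fun m hm => hsat _ hp0 m hm) ha₀)

end Line

end Fermat.Agent.S59.NMP.H590

end
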