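/-
Row S59, cell NMP, leaf LGC (Eichler–Shimura at `p`), piece EIG — GEO-SUB (helper590).

`M` the Tate eigenmodule of `X = Hom_ℤ(𝒪, J)` (`S30/H529`), `W ≤ M` a Galois-stable `p`-saturated
submodule, `R ≤ M` a submodule all of whose elements have components with values in
`I_aug J[pⁿ]` (the range of the Eichler–Shimura operator `F² - T_p F + p`, by CORE).  If (K) holds
for `(I, J)` and `a₀ W ⊆ I_aug M + R` for some `a₀ ≠ 0`, then

    W = I_aug W + 𝔪 W            (`I_aug W` = the augmentation submodule of the action on `W`).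

(Generalisation of `S33.homEigen_geoAt`, helper409, and of `homEigen_geoRelAt`.)
-/
import Fermat.Agent.S33.EigB
import Fermat.Agent.S59.NMP.H590.EigOp

set_option autoImplicit false
set_option linter.style.haveILetI false

noncomputable section

namespace Fermat.Agent.S59.NMP.H590

open IsLocalRing Fermat.Agent.S30 Fermat.Agent.S31 Fermat.Agent.S33 Fermat.Agent.S33.H692

section GeoSub

variable (p : ℕ)
variable (O : Type) [CommRing O] [IsDomain O] [IsDiscreteValuationRing O]
  [Finite (ResidueField O)] [CharZero O]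
variable (J : Type) [AddCommGroup J] [DistribMulAction GQ J]
variable {ι : Type} (t : ι → J →+ J) (a : ι → O)

/-- **GEO-SUB.**  See the header. -/
theorem homEigen_geoSub [Fact p.Prime] (hpO : (p : O) ∈ maximalIdeal O)
    (hρ : ∀ (σ : GQ) (i : ι) (h : H529.PreHom O J),
      H529.preHomRep O J σ (H529.PreHom.post (t i) h)
        = H529.PreHom.post (t i) (H529.preHomRep O J σ h))
    (I : Subgroup GQ) (hKey : KeyAt I p J)
    (W : Submodule O ↥(H529.tateEigen (p : O) (fun i => H529.PreHom.post (t i)) a))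
    (hWG : ∀ g : GQ, ∀ m ∈ W,
      H529.tateRep (ϖ := (p : O)) (t := fun i => H529.PreHom.post (t i)) (a := a)
        (H529.preHomRep O J) hρ g m ∈ W)
    (hsat : ∀ m : ↥(H529.tateEigen (p : O) (fun i => H529.PreHom.post (t i)) a),
      (p : O) • m ∈ W → m ∈ W)
    (R : Submodule O ↥(H529.tateEigen (p : O) (fun i => H529.PreHom.post (t i)) a))
    (hR : ∀ v ∈ R, ∀ (n : ℕ) (x : O),
      H529.PreHom.toHom ((v : ℕ → H529.PreHom O J) n) x ∈ iAug I (torsSub J (p ^ (n + 1))))
    (a₀ : O) (ha₀ : a₀ ≠ 0)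
    (hall : ∀ m ∈ W, a₀ • m ∈
      augSpan (H529.tateRep (ϖ := (p : O)) (t := fun i => H529.PreHom.post (t i)) (a := a)
        (H529.preHomRep O J) hρ) I ⊔ R) :
    augSub (A := O) (M := ↥W) (↑I : Set GQ)
        (restrictRep (H529.tateRep (ϖ := (p : O)) (t := fun i => H529.PreHom.post (t i))
          (a := a) (H529.preHomRep O J) hρ) W hWG) ⊔
      (maximalIdeal O) • (⊤ : Submodule O ↥W) = ⊤ := by
  have hp0 : (p : O) ≠ 0 := by
    exact_mod_cast (Fact.out : p.Prime).ne_zero
  -- abbreviations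
  set ρ := H529.tateRep (ϖ := (p : O)) (t := fun i => H529.PreHom.post (t i)) (a := a)
      (H529.preHomRep O J) hρ with hρdef
  -- `p ^ c W ≤ A + R`
  obtain ⟨c, d, hcd⟩ := H529.exists_dvd_pow_of_mem_maximalIdeal hpO ha₀
  have hpc : ∀ m ∈ W, (p : O) ^ c • m ∈ augSpan ρ I ⊔ R := by
    intro m hm
    rw [hcd, mul_comm, mul_smul]
    exact Submodule.smul_mem _ _ (hall m hm)
  obtain ⟨r, o, ho⟩ := exists_reps_mod_s33 (pow_ne_zero (c + 1) hp0)
  -- evaluation of the `c`-th component at the representatives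
  let e : ↥(H529.tateEigen (p : O) (fun i => H529.PreHom.post (t i)) a) →+ (Fin r → J) :=
    { toFun := fun v i => H529.PreHom.toHom ((v : ℕ → H529.PreHom O J) c) (o i)
      map_zero' := by
        funext i
        rfl
      map_add' := by
        intro v w
        funext i
        rfl }
  have he : ∀ v i, e v i = H529.PreHom.toHom ((v : ℕ → H529.PreHom O J) c) (o i) :=
    fun _ _ => rfl
  have heq : ∀ (σ : GQ) v, e (ρ σ v) = σ • e v := by
    intro σ v
    funext i
    rfl
  -- the kernel of `e`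
  have hker : ∀ v, e v = 0 → ∃ w : ↥(H529.tateEigen (p : O)
      (fun i => H529.PreHom.post (t i)) a), v = (p : O) ^ (c + 1) • w := by
    intro v hv
    have hvi : ∀ i, H529.PreHom.toHom ((v : ℕ → H529.PreHom O J) c) (o i) = 0 := by
      intro i
      rw [← he, hv]
      rfl
    have h0 : (v : ℕ → H529.PreHom O J) c = 0 := by
      apply H529.PreHom.ext
      intro x
      obtain ⟨i, d', hd'⟩ := ho x
      have h1 : H529.PreHom.toHom ((v : ℕ → H529.PreHom O J) c) ((p : O) ^ (c + 1) * d') = 0 := by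
        rw [← H529.PreHom.smul_apply, H529.tate_pow_succ_smul v.2 c]
        rfl
      rw [hd', map_add, hvi i, h1, add_zero]
      rfl
    have hlt : ∀ m, m < c + 1 → (v : ℕ → H529.PreHom O J) m = 0 := by
      intro m hm
      obtain ⟨k, rfl⟩ : ∃ k, c = m + k := ⟨c - m, by omega⟩
      rw [← H529.tate_pow_smul v.2 k m, h0, smul_zero]
    obtain ⟨w, hw, hvw⟩ := H529.tate_exists_eq_pow_smul v.2 (c + 1) hlt
    refine ⟨⟨w, hw⟩, ?_⟩
    apply Subtype.ext
    rw [hvw]
    rfl
  -- values of the `c`-th component are killed by `p ^ (c + 1)`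
  have hval : ∀ (v : ↥(H529.tateEigen (p : O) (fun i => H529.PreHom.post (t i)) a)) (x : O),
      H529.PreHom.toHom ((v : ℕ → H529.PreHom O J) c) x ∈ torsSub J (p ^ (c + 1)) := by
    intro v x
    rw [mem_torsSub, ← H529.PreHom.natCast_pow_smul_apply, H529.tate_pow_succ_smul v.2 c]
    rfl
  -- elements of `A` have `c`-th component with values in `I_aug J[p ^ (c + 1)]`
  have haug : ∀ v : ↥(H529.tateEigen (p : O) (fun i => H529.PreHom.post (t i)) a),
      v ∈ augSpan ρ I → ∀ x : O,
        H529.PreHom.toHom ((v : ℕ → H529.PreHom O J) c) x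
          ∈ iAug I (torsSub J (p ^ (c + 1))) := by
    intro v hv
    unfold augSpan at hv
    induction hv using Submodule.span_induction with
    | mem z hz =>
      obtain ⟨σ, hσ, m, rfl⟩ := hz
      intro x
      exact smul_sub_mem_iAug hσ (hval m x)
    | zero =>
      intro x
      exact AddSubgroup.zero_mem _
    | add z w _ _ hz hw =>
      intro x
      exact AddSubgroup.add_mem _ (hz x) (hw x)
    | smul b z _ hz =>
      intro x
      exact hz (b * x)
  have haugS : ∀ v : ↥(H529.tateEigen (p : O) (fun i => H529.PreHom.post (t i)) a),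
      v ∈ augSpan ρ I ⊔ R → ∀ x : O,
        H529.PreHom.toHom ((v : ℕ → H529.PreHom O J) c) x
          ∈ iAug I (torsSub J (p ^ (c + 1))) := by
    intro v hv x
    obtain ⟨v₁, hv₁, v₂, hv₂, rfl⟩ := Submodule.mem_sup.mp hv
    exact AddSubgroup.add_mem _ (haug v₁ hv₁ x) (hR v₂ hv₂ c x)
  -- the subgroup `Y = e (p ^ c W)`
  let φ : ↥(H529.tateEigen (p : O) (fun i => H529.PreHom.post (t i)) a) →+ (Fin r → J) :=
    e.comp (DistribSMul.toAddMonoidHom _ ((p : O) ^ c))
  have hφ : ∀ v, φ v = e ((p : O) ^ c • v) := fun _ => rfl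
  have hφeq : ∀ (σ : GQ) v, φ (ρ σ v) = σ • φ v := by
    intro σ v
    rw [hφ, hφ, ← map_smul, heq]
  set Y : AddSubgroup (Fin r → J) := AddSubgroup.map φ W.toAddSubgroup with hY
  have hYmem : ∀ m ∈ W, φ m ∈ Y := fun m hm => ⟨m, hm, rfl⟩
  have hYG : ∀ (σ : GQ), ∀ y ∈ Y, σ • y ∈ Y := by
    rintro σ _ ⟨v, hv, rfl⟩
    exact ⟨ρ σ v, hWG σ v hv, hφeq σ v⟩
  have hYS : ∀ y ∈ Y, ∀ i, InSPlus I p (y i) := by
    rintro _ ⟨v, hv, rfl⟩ i
    refine ⟨?_, c + 1, ?_⟩
    · rw [hφ, he, ← H529.PreHom.natCast_smul_apply]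
      have h1 : (p : O) • (((p : O) ^ c • v : ↥(H529.tateEigen (p : O)
          (fun i => H529.PreHom.post (t i)) a)) : ℕ → H529.PreHom O J) c
          = (p : O) ^ (c + 1) • (v : ℕ → H529.PreHom O J) c := by
        rw [pow_succ', mul_smul]
        rfl
      rw [h1, H529.tate_pow_succ_smul v.2 c]
      rfl
    · rw [hφ, he]
      exact haugS _ (hpc v hv) (o i)
  have hYkey : Y ≤ iAug I Y := keyAt_pi hKey r Y hYG hYS
  -- lifting the augmentation of `Y`
  have hlift : ∀ y ∈ iAug I Y, ∃ v : ↥W,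
      v ∈ augSub (↑I : Set GQ) (restrictRep ρ W hWG) ∧ φ (v : ↥(H529.tateEigen (p : O)
        (fun i => H529.PreHom.post (t i)) a)) = y := by
    intro y hy
    unfold iAug at hy
    induction hy using AddSubgroup.closure_induction with
    | mem z hz =>
      obtain ⟨σ, hσ, y', ⟨v', hv', rfl⟩, rfl⟩ := hz
      refine ⟨restrictRep ρ W hWG σ ⟨v', hv'⟩ - ⟨v', hv'⟩,
        sub_mem_augSub _ (SetLike.mem_coe.mpr hσ) _, ?_⟩
      have h1 : ((restrictRep ρ W hWG σ ⟨v', hv'⟩ - ⟨v', hv'⟩ : ↥W) :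
          ↥(H529.tateEigen (p : O) (fun i => H529.PreHom.post (t i)) a)) = ρ σ v' - v' := rfl
      rw [h1, map_sub, hφeq]
    | zero => exact ⟨0, Submodule.zero_mem _, map_zero φ⟩
    | add z w _ _ hz hw =>
      obtain ⟨v, hv, rfl⟩ := hz
      obtain ⟨v', hv', rfl⟩ := hw
      exact ⟨v + v', Submodule.add_mem _ hv hv', map_add φ _ _⟩
    | neg z _ hz =>
      obtain ⟨v, hv, rfl⟩ := hz
      have e1 : (((-1 : O) • v : ↥W) : ↥(H529.tateEigen (p : O)
          (fun i => H529.PreHom.post (t i)) a))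
          = -(v : ↥(H529.tateEigen (p : O) (fun i => H529.PreHom.post (t i)) a)) := by
        rw [Submodule.coe_smul]
        exact neg_one_smul O _
      exact ⟨(-1 : O) • v, Submodule.smul_mem _ _ hv, by rw [e1, map_neg]⟩
  -- conclusion
  rw [eq_top_iff]
  intro m _
  obtain ⟨v, hv, hvm⟩ := hlift (φ (m : ↥(H529.tateEigen (p : O)
    (fun i => H529.PreHom.post (t i)) a))) (hYkey (hYmem m.1 m.2))
  have h0 : e ((p : O) ^ c • ((m : ↥(H529.tateEigen (p : O)
      (fun i => H529.PreHom.post (t i)) a)) - v)) = 0 := by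
    rw [← hφ, map_sub, hvm, sub_self]
  obtain ⟨w, hw⟩ := hker _ h0
  have h1 : ((m : ↥(H529.tateEigen (p : O) (fun i => H529.PreHom.post (t i)) a)) - v)
      = (p : O) • w := by
    have h2 : (p : O) ^ c • ((m : ↥(H529.tateEigen (p : O)
        (fun i => H529.PreHom.post (t i)) a)) - v - (p : O) • w) = 0 := by
      rw [smul_sub, hw, pow_succ, mul_smul, sub_self]
    have h3 : ((m : ↥(H529.tateEigen (p : O) (fun i => H529.PreHom.post (t i)) a)) - v
        - (p : O) • w) = 0 := by
      apply Subtype.ext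
      funext n
      have h4 := H529.tate_pow_smul ((m : ↥(H529.tateEigen (p : O)
        (fun i => H529.PreHom.post (t i)) a)) - v - (p : O) • w).2 c n
      have h5 := congrFun (congrArg Subtype.val h2) (n + c)
      rw [← h4]
      exact h5
    exact sub_eq_zero.mp h3
  have hwW : w ∈ W := by
    apply hsat
    rw [← h1]
    exact W.sub_mem m.2 v.2
  have h6 : m = v + (p : O) • (⟨w, hwW⟩ : ↥W) := by
    apply Subtype.ext
    show (m : ↥(H529.tateEigen (p : O) (fun i => H529.PreHom.post (t i)) a))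
      = v + (p : O) • w
    rw [← h1]
    abel
  rw [h6]
  exact Submodule.add_mem_sup hv (Submodule.smul_mem_smul hpO Submodule.mem_top)

end GeoSub

end Fermat.Agent.S59.NMP.H590

end
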