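/-
Row S59, cell NMP, leaf LGC (Eichler–Shimura at `p`), piece EIG — operator form on the Tate
eigenmodule (helper590).

`M` the Tate eigenmodule of `X = Hom_ℤ(𝒪, J)` for a family `t i` with eigenvalues `a i`, `T` an
endomorphism of `J` commuting with the `t i` and with the Galois action (`T = T_p`).

* `tateOp T` : the endomorphism of `M` induced by `T`.
* `tateOp_scalar` : for `ρ` with the data of `NMP.UnrFrobAt ρ p α`, REL on `M`, (K) for `(I_P, J)`
  and CORE for `(φ, T)`:   `α • T m = (α² + p) • m` for all `m ∈ M`.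
-/
import Fermat.Agent.S59.NMP.H590.GeoSub
import Fermat.Agent.S59.NMP.H590.EigOpLine

set_option autoImplicit false
set_option linter.style.haveILetI false
set_option linter.unusedSectionVars false

noncomputable section

namespace Fermat.Agent.S59.NMP.H590

open IsLocalRing Fermat.Agent.S30 Fermat.Agent.S31 Fermat.Agent.S33
open Fermat.Agent.S33.H692 (augSub)

section TateOp

variable (p : ℕ)
variable (O : Type) [CommRing O] [IsDomain O] [IsDiscreteValuationRing O]
  [Finite (ResidueField O)] [CharZero O]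
variable (J : Type) [AddCommGroup J] [DistribMulAction GQ J]
variable {ι : Type} (t : ι → J →+ J) (a : ι → O)

/-- The endomorphism of the Tate eigenmodule induced by an endomorphism of `J` commuting with the
operators. -/
def tateOp (T : J →+ J) (hT : ∀ i x, T (t i x) = t i (T x)) :
    Module.End O ↥(H529.tateEigen (p : O) (fun i => H529.PreHom.post (t i)) a) :=
  H529.tateMap (H529.PreHom.post T) (fun i h => by
    apply H529.PreHom.ext
    intro x
    simp only [H529.PreHom.post_apply]
    exact hT i _)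

theorem tateOp_apply_coe (T : J →+ J) (hT : ∀ i x, T (t i x) = t i (T x))
    (v : ↥(H529.tateEigen (p : O) (fun i => H529.PreHom.post (t i)) a)) (n : ℕ) (x : O) :
    H529.PreHom.toHom (((tateOp p O J t a T hT v :
      ↥(H529.tateEigen (p : O) (fun i => H529.PreHom.post (t i)) a)) : ℕ → H529.PreHom O J) n) x
      = T (H529.PreHom.toHom ((v : ℕ → H529.PreHom O J) n) x) := rfl

/-- **EIG, operator form, on the Tate eigenmodule.** -/
theorem tateOp_scalar [Fact p.Prime] (hpO : (p : O) ∈ maximalIdeal O)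
    (hρ : ∀ (σ : GQ) (i : ι) (h : H529.PreHom O J),
      H529.preHomRep O J σ (H529.PreHom.post (t i) h)
        = H529.PreHom.post (t i) (H529.preHomRep O J σ h))
    (T : J →+ J) (hT : ∀ i x, T (t i x) = t i (T x))
    (hTG : ∀ (σ : GQ) (x : J), T (σ • x) = σ • T x)
    (ρ : GaloisRepAdic O) (α : O)
    (P : ValuationSubring (AlgebraicClosure ℚ))
    (b : Module.Basis (Fin 2) O ρ.V)
    (hD : ∀ σ ∈ P.decompositionSubgroup ℚ, ∀ v ∈ (O ∙ b 0), ρ.ρ σ v ∈ (O ∙ b 0))
    (hI : ∀ σ ∈ P.inertiaSubgroupIn ℚ, ∀ v : ρ.V, ρ.ρ σ v - v ∈ (O ∙ b 0))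
    (hF : ∀ σ : GQ, P.IsFrobeniusAt σ p → ∀ v : ρ.V, ρ.ρ σ v - α • v ∈ (O ∙ b 0))
    {φ τ : GQ} (hφ : P.IsFrobeniusAt φ p) (hτ : τ ∈ P.inertiaSubgroupIn ℚ)
    (hτdet : LinearMap.det (ρ.ρ τ) ≠ 1)
    (hspan : Submodule.span O (Set.range ρ.ρ) = ⊤) (h2 : IsUnit (2 : O))
    (hfree : Module.Free O ↥(H529.tateEigen (p : O) (fun i => H529.PreHom.post (t i)) a))
    (hfinite : Module.Finite O ↥(H529.tateEigen (p : O) (fun i => H529.PreHom.post (t i)) a))
    (hrel : ∀ g : GQ,
      H529.tateRep (ϖ := (p : O)) (t := fun i => H529.PreHom.post (t i)) (a := a)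
          (H529.preHomRep O J) hρ g *
        H529.tateRep (ϖ := (p : O)) (t := fun i => H529.PreHom.post (t i)) (a := a)
          (H529.preHomRep O J) hρ g
      - (LinearMap.trace O ρ.V (ρ.ρ g)) •
        H529.tateRep (ϖ := (p : O)) (t := fun i => H529.PreHom.post (t i)) (a := a)
          (H529.preHomRep O J) hρ g
      + (LinearMap.det (ρ.ρ g)) • (1 : Module.End O
          ↥(H529.tateEigen (p : O) (fun i => H529.PreHom.post (t i)) a)) = 0)
    (hKey : KeyAt (P.inertiaSubgroupIn ℚ) p J)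
    (hcore : ∀ (n : ℕ) (x : J), x ∈ torsSub J (p ^ n) →
      φ • φ • x - T (φ • x) + p • x ∈ iAug (P.inertiaSubgroupIn ℚ) (torsSub J (p ^ n)))
    (m : ↥(H529.tateEigen (p : O) (fun i => H529.PreHom.post (t i)) a)) :
    α • tateOp p O J t a T hT m = (α ^ 2 + (p : O)) • m := by
  have hp0 : (p : O) ≠ 0 := by
    exact_mod_cast (Fact.out : p.Prime).ne_zero
  haveI := hfree
  haveI := hfinite
  set ρM := H529.tateRep (ϖ := (p : O)) (t := fun i => H529.PreHom.post (t i)) (a := a)
      (H529.preHomRep O J) hρ with hρM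
  -- `T` commutes with the action
  have hTρ : ∀ (g : GQ) (x : ↥(H529.tateEigen (p : O) (fun i => H529.PreHom.post (t i)) a)),
      tateOp p O J t a T hT (ρM g x) = ρM g (tateOp p O J t a T hT x) := by
    intro g x
    apply Subtype.ext
    funext n
    apply H529.PreHom.ext
    intro y
    exact hTG g _
  -- values of the components
  have hval : ∀ (v : ↥(H529.tateEigen (p : O) (fun i => H529.PreHom.post (t i)) a)) (n : ℕ)
      (x : O), H529.PreHom.toHom ((v : ℕ → H529.PreHom O J) n) x ∈ torsSub J (p ^ (n + 1)) := by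
    intro v n x
    rw [mem_torsSub, ← H529.PreHom.natCast_pow_smul_apply, H529.tate_pow_succ_smul v.2 n]
    rfl
  -- CORE on the range of the Eichler–Shimura operator
  have hR : ∀ v ∈ LinearMap.range (esOp (ρM φ) (tateOp p O J t a T hT) p), ∀ (n : ℕ) (x : O),
      H529.PreHom.toHom ((v : ℕ → H529.PreHom O J) n) x
        ∈ iAug (P.inertiaSubgroupIn ℚ) (torsSub J (p ^ (n + 1))) := by
    rintro _ ⟨w, rfl⟩ n x
    have h1 : H529.PreHom.toHom (((esOp (ρM φ) (tateOp p O J t a T hT) p w :
        ↥(H529.tateEigen (p : O) (fun i => H529.PreHom.post (t i)) a)) :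
          ℕ → H529.PreHom O J) n) x
        = φ • φ • H529.PreHom.toHom ((w : ℕ → H529.PreHom O J) n) x
          - T (φ • H529.PreHom.toHom ((w : ℕ → H529.PreHom O J) n) x)
          + p • H529.PreHom.toHom ((w : ℕ → H529.PreHom O J) n) x := by
      have h3 : H529.PreHom.toHom (((p : O)) • ((w : ℕ → H529.PreHom O J) n)) x
          = p • H529.PreHom.toHom ((w : ℕ → H529.PreHom O J) n) x :=
        H529.PreHom.natCast_smul_apply p _ x
      rw [← h3]
      rfl
    rw [h1]
    exact hcore (n + 1) _ (hval w n x)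
  refine op_scalar_of_line ρ p α P b hD hI hF hφ hτ hτdet hspan h2 ρM hrel
    (tateOp p O J t a T hT) hTρ ?_ hp0 m
  rintro W hWG hsat ⟨a₀, ha₀, hall⟩
  exact homEigen_geoSub p O J t a hpO hρ (P.inertiaSubgroupIn ℚ) hKey W hWG hsat _ hR a₀ ha₀ hall

end TateOp

end Fermat.Agent.S59.NMP.H590

end
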