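/-
Row S59, cell NMP, leaf LGC (Eichler–Shimura at `p`), piece EIG — operator form for a datum
(helper590).

`scalarAtP_of_coreAt` : `H` a Hecke–Galois datum of level `N` (`p ∤ N`, `p` odd) away from `S ∋ p`,
`P` a local `p`-adic point of its coefficient ring with eigenvalues `a`, `α` the unramified
Frobenius eigenvalue of `H.ρ ⊗_P P.O` at `p`.  Under CORE at `(N, p)`, every eigen-homomorphism
`f : Frac P.O / P.O → J₀(N)` of eigenvalues `a` satisfies

    T_p (f (α x)) = f ((α² + p) x).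

Inputs from main: (K) for `J₀(N)`, `p ∤ N` (`S33.OldAugStatement`), finiteness of `J₀(N)[p]`,
torsion relations at `ℓ ∤ N p` (S37), REL (`S32.H692.rel`), Burnside (`S31.H202`), the determinant
is cyclotomic (`S59.H540`), commutation of the Hecke operators (`S29.M1`).
-/
import Fermat.Agent.S29.M1
import Fermat.Agent.S59.NMP.H590.EigDatum
import Fermat.Agent.S59.NMP.H590.EigModule
import Fermat.Agent.S59.NMP.H590.EigOpTate
import Fermat.Agent.S59.NMP.H590.EigOpProps

set_option autoImplicit false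
set_option linter.style.haveILetI false

noncomputable section

namespace Fermat.Agent.S59.NMP.H590

open IsLocalRing Fermat.Agent.S30 Fermat.Agent.S31 Fermat.Agent.S33
open Fermat.Agent.S30.H990 (AdicEigenModule)
open Fermat.Agent.S30.H330

/-- Change of the linear coefficient in a quadratic relation. -/
theorem quad_congr {O : Type*} [CommRing O] {M : Type*} [AddCommGroup M] [Module O M]
    (X : Module.End O M) (c c' d : O) (h : c = c')
    (hX : X * X - c' • X + d • (1 : Module.End O M) = 0) :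
    X * X - c • X + d • (1 : Module.End O M) = 0 := by
  rw [h]
  exact hX

/-- Change of both coefficients in a quadratic relation. -/
theorem quad_congr2 {O : Type*} [CommRing O] {M : Type*} [AddCommGroup M] [Module O M]
    (X : Module.End O M) (c c' d d' : O) (hc : c = c') (hd : d = d')
    (hX : X * X - c' • X + d' • (1 : Module.End O M) = 0) :
    X * X - c • X + d • (1 : Module.End O M) = 0 := by
  rw [hc, hd]
  exact hX

/-- **EIG, operator form, for a datum.**  See the header. -/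
theorem scalarAtP_of_coreAt (hOLD : OldAugStatement)
    (hF : ∀ (N : ℕ) [NeZero N] (p : ℕ) [Fact p.Prime], FinStatement N p)
    (hT : ∀ (N : ℕ) [NeZero N] (p : ℕ) [Fact p.Prime], TorsionRelations N p)
    (p : ℕ) [Fact p.Prime] (hp2 : p ≠ 2) (N : ℕ) [NeZero N] (hpN : ¬ p ∣ N)
    (S : Finset ℕ) (hpS : p ∈ S) (hNS : ∀ q : ℕ, q.Prime → q ∣ N → q ∈ S)
    (𝒪 : Type) [CommRing 𝒪] [IsDomain 𝒪] [IsDiscreteValuationRing 𝒪]
    [IsAdicComplete (maximalIdeal 𝒪) 𝒪]
    (θ : CuspForm.heckeAlgebra N 2 (↑S : Set ℕ) →+* ResidueField 𝒪)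
    (T : Type) [CommRing T] [IsLocalRing T] [IsNoetherianRing T]
    [IsAdicComplete (maximalIdeal T) T] [Algebra 𝒪 T] [IsLocalHom (algebraMap 𝒪 T)]
    [Module.Finite 𝒪 T] [Module.Free 𝒪 T]
    (H : CuspForm.HeckeGaloisRepDatum N (↑S : Set ℕ) 𝒪 θ T)
    (P : PadicPoint p T) (hloc : IsLocalHom P.χ)
    (α : P.O) (hα : UnrFrobAt (H.ρ.baseChangeAlong P.χ hloc) p α)
    (a : ℕ → P.O)
    (ha : ∀ (ℓ : ℕ) (hℓ : ℓ.Prime) (hℓN : ¬ ℓ ∣ N) (hℓS : ℓ ∉ (↑S : Set ℕ)),
      P.χ (H.π (CuspForm.heckeAlgebra.T hℓ hℓN hℓS)) = a ℓ)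
    (hcore : CoreAt N p)
    (f : FractionRing P.O →+ ModularCurve.JZero N)
    (hf0 : ∀ r : P.O, f (algebraMap P.O (FractionRing P.O) r) = 0)
    (hfe : ∀ ℓ : Nat.Primes, ¬ (ℓ : ℕ) ∣ N → (ℓ : ℕ) ∉ S → ∀ x : FractionRing P.O,
      ModularCurve.heckeOperatorBar N ℓ (f x)
        = f (algebraMap P.O (FractionRing P.O) (a ℓ) * x))
    (x : FractionRing P.O) :
    ModularCurve.heckeOperatorBar N ⟨p, Fact.out⟩ (f (algebraMap P.O (FractionRing P.O) α * x))
      = f (algebraMap P.O (FractionRing P.O) (α ^ 2 + (p : P.O)) * x) := by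
  classical
  have hp : p.Prime := Fact.out
  by_cases hf : f = 0
  · subst hf
    simp
  have hSm := Fermat.Agent.S30.H990.smoothStatement N
  have hGH := Fermat.Agent.S30.H990.galoisHeckeStatement N
  have hcomm := Fermat.Agent.S29.heckeOperatorsCommuteBar N
  -- the family of operators
  let t : {ℓ : Nat.Primes // ¬ (ℓ : ℕ) ∣ N ∧ (ℓ : ℕ) ∉ S} →
      ModularCurve.JZero N →+ ModularCurve.JZero N := fun i =>
    (ModularCurve.heckeOperatorBar N i.1).toAddMonoidHom
  let a' : {ℓ : Nat.Primes // ¬ (ℓ : ℕ) ∣ N ∧ (ℓ : ℕ) ∉ S} → P.O := fun i => a (i.1 : ℕ)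
  have ht : ∀ i (σ : GQ) (x : ModularCurve.JZero N), σ • t i x = t i (σ • x) :=
    fun i σ x => hGH σ i.1 x
  have hρ := preHomRep_post_comm (O := P.O) t ht
  have hfe' : ∀ i x, t i (f x) = f (algebraMap P.O (FractionRing P.O) (a' i) * x) :=
    fun i x => hfe i.1 i.2.1 i.2.2 x
  -- the module
  have hfree := tateEigen_free590 t a' hp P.hp (hF N p)
  have hfinite := tateEigen_finite590 t a' hp P.hp (hF N p)
  have hmem := seqOfHom_mem_tateEigen t a' hp f hf0 hfe'
  have hne := seqOfHom_ne_zero hp P.hp f hf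
  have hnt : Nontrivial ↥(H529.tateEigen (p : P.O) (fun i => H529.PreHom.post (t i)) a') :=
    ⟨⟨⟨H529.seqOfHom p f, hmem⟩, 0, fun h => hne (congrArg Subtype.val h)⟩⟩
  have hdvd : ∀ q : ℕ, q.Prime → ¬ q ∣ N → q ≠ p → ¬ q ∣ N * p := by
    intro q hq hqN hqp hdiv
    rcases (Nat.Prime.dvd_mul hq).1 hdiv with h1 | h1
    · exact hqN h1
    · exact hqp ((Nat.prime_dvd_prime_iff_eq hq hp).1 h1)
  have hfrob : ∀ (ℓ : ℕ) (hℓ : ℓ.Prime) (hℓN : ¬ ℓ ∣ N) (hℓS : ℓ ∉ (↑S : Set ℕ)),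
      ∀ A : ValuationSubring (AlgebraicClosure ℚ), A.LiesOverPrime ℓ →
        ∀ σ : GQ, A.IsFrobeniusAt σ ℓ →
          H529.tateRep (ϖ := (p : P.O)) (t := fun i => H529.PreHom.post (t i)) (a := a')
              (H529.preHomRep P.O (ModularCurve.JZero N)) hρ σ *
            H529.tateRep (ϖ := (p : P.O)) (t := fun i => H529.PreHom.post (t i)) (a := a')
              (H529.preHomRep P.O (ModularCurve.JZero N)) hρ σ
          - (P.χ.comp H.π) (CuspForm.heckeAlgebra.T hℓ hℓN hℓS) •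
            H529.tateRep (ϖ := (p : P.O)) (t := fun i => H529.PreHom.post (t i)) (a := a')
              (H529.preHomRep P.O (ModularCurve.JZero N)) hρ σ
          + (ℓ : P.O) • (1 : Module.End P.O
              ↥(H529.tateEigen (p : P.O) (fun i => H529.PreHom.post (t i)) a')) = 0 := by
    intro ℓ hℓ hℓN hℓS A hA σ hσ
    have hℓS' : ℓ ∉ S := fun hmem => hℓS (Finset.mem_coe.mpr hmem)
    have hℓp : ℓ ≠ p := fun h => hℓS' (h ▸ hpS)
    have h1 := tateRep_quad590 t a' hρ ⟨⟨ℓ, hℓ⟩, hℓN, hℓS'⟩ ℓ σ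
      fun x hx => (hT N p ℓ hℓ (hdvd ℓ hℓ hℓN hℓp) A hA).2 σ hσ x hx
    have h2 : (P.χ.comp H.π) (CuspForm.heckeAlgebra.T hℓ hℓN hℓS) = a ℓ := ha ℓ hℓ hℓN hℓS
    exact quad_congr _ _ _ _ h2 h1
  let E : AdicEigenModule p N S P.O (P.χ.comp H.π) :=
    { M := ↥(H529.tateEigen (p : P.O) (fun i => H529.PreHom.post (t i)) a')
      instFree := hfree
      instFinite := hfinite
      instNontrivial := hnt
      ρ := H529.tateRep (ϖ := (p : P.O)) (t := fun i => H529.PreHom.post (t i)) (a := a')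
        (H529.preHomRep P.O (ModularCurve.JZero N)) hρ
      cont := tateRep_cont590 t a' hρ P.hp (fun x => hSm x) (hF N p)
      unram := fun q hq hqN hqp A hA σ hσ =>
        tateRep_unram590 t a' hρ σ fun x hx =>
          (hT N p q hq (hdvd q hq hqN hqp) A hA).1 σ hσ x hx
      frob := hfrob }
  -- the Galois side
  obtain ⟨Pl, hPl, L, ⟨b, rfl⟩, hD, hI, hFr⟩ := hα
  obtain ⟨φ, hφ⟩ := Fermat.Agent.S37.H99.exists_isFrobeniusAt p hp Pl hPl
  have hspanT := Fermat.Agent.S31.H202.span_range_rho_eq_top H.ρ H.residual_absIrr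
  have hspan := span_range_baseChangeAlong590 P.χ hloc H.ρ hspanT
  have hrel0 := Fermat.Agent.S32.H692.rel p N S hpS hNS 𝒪 θ T H P hloc E
  have hrel : ∀ g : GQ,
      H529.tateRep (ϖ := (p : P.O)) (t := fun i => H529.PreHom.post (t i)) (a := a')
          (H529.preHomRep P.O (ModularCurve.JZero N)) hρ g *
        H529.tateRep (ϖ := (p : P.O)) (t := fun i => H529.PreHom.post (t i)) (a := a')
          (H529.preHomRep P.O (ModularCurve.JZero N)) hρ g
      - (LinearMap.trace P.O (H.ρ.baseChangeAlong P.χ hloc).V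
          ((H.ρ.baseChangeAlong P.χ hloc).ρ g)) •
        H529.tateRep (ϖ := (p : P.O)) (t := fun i => H529.PreHom.post (t i)) (a := a')
          (H529.preHomRep P.O (ModularCurve.JZero N)) hρ g
      + (LinearMap.det ((H.ρ.baseChangeAlong P.χ hloc).ρ g)) • (1 : Module.End P.O
          ↥(H529.tateEigen (p : P.O) (fun i => H529.PreHom.post (t i)) a')) = 0 := by
    intro g
    exact quad_congr2 _ _ _ _ _ (trace_baseChangeAlong590 P.χ hloc H.ρ g)
      (det_baseChangeAlong590 P.χ hloc H.ρ g) (hrel0 g)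
  have h2u : IsUnit (2 : P.O) := Fermat.Agent.S33.H692.isUnit_two_of_odd_mem hp hp2 P.hp
  have hpT : (p : T) ∈ maximalIdeal T := by
    rw [mem_maximalIdeal, mem_nonunits_iff]
    intro hu
    have h1 : IsUnit (P.χ (p : T)) := hu.map P.χ
    rw [map_natCast] at h1
    exact (mem_nonunits_iff.mp ((mem_maximalIdeal _).mp P.hp)) h1
  have hdetc : H.ρ.DetIsCyclotomic p :=
    Fermat.Agent.S59.H540.heckeGaloisRepDatum_detIsCyclotomic S H p hpT
  obtain ⟨τ, hτ, hτdet⟩ := exists_inertia_det_ne_one590 H.ρ hp hp2 hdetc P.χ P.hp Pl hPl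
  have hτdet' : LinearMap.det ((H.ρ.baseChangeAlong P.χ hloc).ρ τ) ≠ 1 := by
    rw [det_baseChangeAlong590]
    exact hτdet
  -- `T_p`
  have hTt : ∀ i x, (ModularCurve.heckeOperatorBar N ⟨p, Fact.out⟩).toAddMonoidHom (t i x)
      = t i ((ModularCurve.heckeOperatorBar N ⟨p, Fact.out⟩).toAddMonoidHom x) := by
    intro i x
    exact congrArg (fun E : Module.End ℤ (ModularCurve.JZero N) => E x) (hcomm ⟨p, Fact.out⟩ i.1)
  have hTG : ∀ (σ : GQ) (x : ModularCurve.JZero N),
      (ModularCurve.heckeOperatorBar N ⟨p, Fact.out⟩).toAddMonoidHom (σ • x)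
        = σ • (ModularCurve.heckeOperatorBar N ⟨p, Fact.out⟩).toAddMonoidHom x :=
    fun σ x => (hGH σ _ x).symm
  have hsc := tateOp_scalar p P.O (ModularCurve.JZero N) t a' P.hp hρ
    (ModularCurve.heckeOperatorBar N ⟨p, Fact.out⟩).toAddMonoidHom hTt hTG
    (H.ρ.baseChangeAlong P.χ hloc) α Pl b hD hI hFr hφ hτ hτdet' hspan h2u hfree hfinite hrel
    (hOLD p N hp hp2 hpN Pl hPl) (hcore Pl hPl φ hφ) ⟨H529.seqOfHom p f, hmem⟩
  -- the adapter
  obtain ⟨k, o, rfl⟩ := exists_eq_div_pow hp P.hp x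
  have h1 := congrArg (fun m : ↥(H529.tateEigen (p : P.O)
    (fun i => H529.PreHom.post (t i)) a') =>
      H529.PreHom.toHom ((m : ℕ → H529.PreHom P.O (ModularCurve.JZero N)) k) o) hsc
  have e1 : algebraMap P.O (FractionRing P.O) α * (algebraMap P.O (FractionRing P.O) o
      * (algebraMap P.O (FractionRing P.O) (p : P.O) ^ (k + 1))⁻¹)
      = algebraMap P.O (FractionRing P.O) (α * o)
        * (algebraMap P.O (FractionRing P.O) (p : P.O) ^ (k + 1))⁻¹ := by
    rw [map_mul, mul_assoc]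
  have e2 : algebraMap P.O (FractionRing P.O) (α ^ 2 + (p : P.O))
      * (algebraMap P.O (FractionRing P.O) o
        * (algebraMap P.O (FractionRing P.O) (p : P.O) ^ (k + 1))⁻¹)
      = algebraMap P.O (FractionRing P.O) ((α ^ 2 + (p : P.O)) * o)
        * (algebraMap P.O (FractionRing P.O) (p : P.O) ^ (k + 1))⁻¹ := by
    rw [map_mul, mul_assoc]
  rw [e1, e2]
  exact h1

end Fermat.Agent.S59.NMP.H590

end
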