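/-
Row S59, cell NMP, leaf LGC (Eichler–Shimura at `p`), piece EIG — the frozen leaf (helper590).

    lgcEig_of_core_of_inputs :
      S33.OldAugStatement → (F) → (T) → H135.LgcCoreStatement → H135.LgcEigStatement

(`H135.LgcEigStatement`, `H135.LgcCoreStatement`: `S59/NMP/H135/LgcSpec.lean`, helper135.)
The three inputs are theorems on main (`S33.H706.oldAugStatement`; (F), (T) as in
`S33/EigBFinal.lean`); they are discharged in `EigFinal.lean`.

Proof.  `scalarAtP_of_coreAt` (`EigOpDatum.lean`) at the `𝒪`-point `π` of the datum `H` of the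
flat level: the Tate eigenmodule `W` of the eigen-homs carries `T_p` (commuting with `G_ℚ`);
`W' := ` saturation of `(α² - α T_p + p) W` satisfies `c W' ⊆ I_aug W + (F² - T_p F + p) W`
(FROB: `c (F - α) W ⊆ I_aug W` from the quadratic relations of `φ` and `φ τ`), hence
`W' = I_aug W' + 𝔪 W'` by (K) + CORE (GEO-SUB), hence `W' = 0` by the residual ordinary line
(Boston–Lenstra–Ribet over the residue field, `S33.H692.augSub_sup_ne_top`).
-/
import Fermat.Agent.S59.NMP.H135.LgcSpec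
import Fermat.Agent.S59.Arch.WilesLevel
import Fermat.Agent.S59.NMP.H590.EigOpDatum

set_option autoImplicit false
set_option linter.style.haveILetI false

noncomputable section

namespace Fermat.Agent.S59.NMP.H590

open IsLocalRing Fermat.Agent.S30 Fermat.Agent.S31 Fermat.Agent.S33
open Fermat.Agent.S30.H330 Fermat.Agent.S59.Arch

/-- **CORE at `(N, p)` from the frozen `H135.LgcCoreStatement`.** -/
theorem coreAt_of_lgcCore (hcore : Fermat.Agent.S59.NMP.H135.LgcCoreStatement)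
    (p : ℕ) [Fact p.Prime] (hp2 : p ≠ 2) (N : ℕ) [NeZero N] (hpN : ¬ p ∣ N) : CoreAt N p := by
  intro Pl hPl φ hφ n x hx
  exact hcore p N Fact.out hp2 hpN Pl hPl φ hφ n x (mem_torsSub.mp hx)

/-- **Leaf EIG (frozen `H135.LgcEigStatement`) from CORE**, the inputs from main as hypotheses. -/
theorem lgcEig_of_core_of_inputs (hOLD : OldAugStatement)
    (hF : ∀ (N : ℕ) [NeZero N] (p : ℕ) [Fact p.Prime], FinStatement N p)
    (hT : ∀ (N : ℕ) [NeZero N] (p : ℕ) [Fact p.Prime], TorsionRelations N p)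
    (hcore : Fermat.Agent.S59.NMP.H135.LgcCoreStatement) :
    Fermat.Agent.S59.NMP.H135.LgcEigStatement := by
  intro p _ 𝒪 _ _ _ _ _ _ ρbar Smin h hc Sig hSig hSigP hpSig hflat hord _ _ θ _ _ _ _ _ _
    H hπ hres hcond π hπloc a hπa α hα hpN f hf x
  have hp : p.Prime := Fact.out
  have ha : ∀ (ℓ : ℕ) (hℓ : ℓ.Prime) (hℓN : ¬ ℓ ∣ wilesLevel p .flat Smin Sig)
      (hℓS : ℓ ∉ (↑Sig : Set ℕ)),
      (π : _ →+* 𝒪) (H.π (CuspForm.heckeAlgebra.T hℓ hℓN hℓS)) = a ℓ := by
    intro ℓ hℓ hℓN hℓS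
    have h1 := hπa ℓ hℓ hℓN hℓS
    have h2 : H.π (CuspForm.heckeAlgebra.T hℓ hℓN hℓS)
        = CuspForm.heckeLocal.π (wilesLevel p .flat Smin Sig) (↑Sig : Set ℕ) 𝒪 θ
          (CuspForm.heckeAlgebra.T hℓ hℓN hℓS) := by
      rw [hπ]
    rw [h2]
    exact h1
  exact scalarAtP_of_coreAt hOLD hF hT p h.hp2 (wilesLevel p .flat Smin Sig) hpN Sig hpSig
    (fun q hq hqN => mem_of_prime_dvd_wilesLevel hp h.hSmin hSigP h.hpSmin hSig q hq hqN)
    𝒪 θ _ H { O := 𝒪, hp := h.hp𝒪, χ := (π : _ →+* 𝒪) } hπloc α hα a ha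
    (coreAt_of_lgcCore hcore p h.hp2 _ hpN) f hf.1 hf.2 x

end Fermat.Agent.S59.NMP.H590

end
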