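/-
Row S59, cell NMP, leaf LGC (Eichler–Shimura at `p`) — EIG, unconditional form (helper590).

    lgcEig_of_core : H135.LgcCoreStatement → H135.LgcEigStatement
    lgc_of_core    : H135.LgcCoreStatement → NMP.LgcStatement        (with BETTI, helper161)

The inputs (K) = `S33.H706.oldAugStatement`, (F), (T) of `lgcEig_of_core_of_inputs` are discharged
from main exactly as in `S33/EigBFinal.lean` (helper409).
-/
import Fermat.Agent.S59.NMP.H590.EigTop
import Fermat.Agent.S33.EigBFinal
import Fermat.Agent.S33.H706.OldSpec
import Fermat.Agent.S59.NMP.H161.Betti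

set_option autoImplicit false
set_option linter.style.haveILetI false
set_option linter.overlappingInstances false

noncomputable section

namespace Fermat.Agent.S59.NMP.H590

open Fermat.Agent.S30.H330 Fermat.Agent.S30.Chain

/-- **Leaf EIG of NMP-LGC**: the frozen `H135.LgcEigStatement` from CORE. -/
theorem lgcEig_of_core (hcore : Fermat.Agent.S59.NMP.H135.LgcCoreStatement) :
    Fermat.Agent.S59.NMP.H135.LgcEigStatement :=
  lgcEig_of_core_of_inputs Fermat.Agent.S33.H706.oldAugStatement
    (fun N _ p hp =>
      haveI : NeZero p := ⟨hp.out.ne_zero⟩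
      finStatement_of_onto
        (kumPackage_one (fun n =>
          haveI : NeZero (p ^ n) := ⟨pow_ne_zero n hp.out.ne_zero⟩
          kumPackage N (p ^ n))).uniq
        (fun _ hx => Fermat.Agent.S30.H810.exists_isKum_of_torsion N p hx))
    (Fermat.Agent.S30.H694.torsionRelations_of_nodes
      (fun M _ _ _ hℓM A hA => Fermat.Agent.S18.Mod.H216.node_mod M hℓM A hA)
      (fun M => Fermat.Agent.S18.H438.node_alg M))
    hcore

/-- **NMP-LGC from CORE** (EIG + BETTI). -/
theorem lgc_of_core (hcore : Fermat.Agent.S59.NMP.H135.LgcCoreStatement) :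
    Fermat.Agent.S59.NMP.LgcStatement :=
  Fermat.Agent.S59.NMP.H161.lgc_of_eig (lgcEig_of_core hcore)

end Fermat.Agent.S59.NMP.H590

end
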