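/-
Row S59, cell NMP — leaf LGC (Eichler–Shimura at `p`), UNCONDITIONAL (helper590).

    lgcEig : H135.LgcEigStatement       (EIG,  `EigFinal.lgcEig_of_core` + CORE)
    lgc    : NMP.LgcStatement           (LGC = EIG + BETTI)

CORE = `H135.lgcCore` (helper135; MAXUNR = helper296, dévissage = helper43),
BETTI = `H161.lgc_of_eig` (helper161), sub-interface `H135/LgcSpec.lean` (helper135).
-/
import Fermat.Agent.S59.NMP.H590.EigFinal
import Fermat.Agent.S59.NMP.H135.CoreFinal

set_option autoImplicit false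

namespace Fermat.Agent.S59.NMP.H590

/-- **Leaf EIG of NMP-LGC**, unconditional. -/
theorem lgcEig : Fermat.Agent.S59.NMP.H135.LgcEigStatement :=
  lgcEig_of_core Fermat.Agent.S59.NMP.H135.lgcCore

/-- **Leaf LGC of cell NMP**, unconditional. -/
theorem lgc : Fermat.Agent.S59.NMP.LgcStatement :=
  lgc_of_core Fermat.Agent.S59.NMP.H135.lgcCore

end Fermat.Agent.S59.NMP.H590
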